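/-
S56 (Taylor-Wiles primes), block (T): choice of the Taylor-Wiles primes.
DEFINITIONS: the twisted adjoint action of `GL₂(k)` on `2 × 2` matrices, cocycles and coboundaries with
values in the trace zero matrices `N = ad⁰ ⊗ det`.
-/
import Mathlib

set_option autoImplicit false

open Matrix Polynomial

noncomputable section

namespace Fermat.Agent.S56.T

variable {k : Type*} [Field k]

/-- `2 × 2` matrices. -/
abbrev M2 (k : Type*) : Type _ := Matrix (Fin 2) (Fin 2) k

/-- The twisted adjoint action `g · X = det g • g X g⁻¹` (the module `ad ⊗ det`). -/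
def act (g : GL (Fin 2) k) (X : M2 k) : M2 k :=
  ((Matrix.GeneralLinearGroup.det g : kˣ) : k) • ((g : M2 k) * X * ((g⁻¹ : GL (Fin 2) k) : M2 k))

/-- upper unipotent matrices -/
def uu (x : k) : GL (Fin 2) k :=
  Matrix.GeneralLinearGroup.mkOfDetNeZero !![1, x; 0, 1] (by simp [Matrix.det_fin_two])

/-- lower unipotent matrices -/
def vv (y : k) : GL (Fin 2) k :=
  Matrix.GeneralLinearGroup.mkOfDetNeZero !![1, 0; y, 1] (by simp [Matrix.det_fin_two])

/-- `c` is a 1-cocycle on the subgroup `Γ` with values in `ad⁰ ⊗ det`. -/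
def IsCoc (Γ : Subgroup (GL (Fin 2) k)) (c : GL (Fin 2) k → M2 k) : Prop :=
  (∀ g ∈ Γ, (c g).trace = 0) ∧ ∀ g ∈ Γ, ∀ h ∈ Γ, c (g * h) = c g + act g (c h)

/-- `c` is a 1-coboundary on the subgroup `Γ`. -/
def IsCob (Γ : Subgroup (GL (Fin 2) k)) (c : GL (Fin 2) k → M2 k) : Prop :=
  ∃ X : M2 k, X.trace = 0 ∧ ∀ g ∈ Γ, c g = act g X - X

/-- the characteristic polynomial splits -/
def Split (m : M2 k) : Prop := ∃ α β : k, m.charpoly = (X - C α) * (X - C β)

/-- two distinct eigenvalues in `k` -/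
def Reg (m : M2 k) : Prop := ∃ α β : k, α ≠ β ∧ m.charpoly = (X - C α) * (X - C β)

section grp

variable {G : Type*} [Group G]

/-- 1-cocycles of `G` with values in `ad⁰ r ⊗ det r`. -/
def IsCocG (r : G →* GL (Fin 2) k) (ψ : G → M2 k) : Prop :=
  (∀ g, (ψ g).trace = 0) ∧ ∀ g h, ψ (g * h) = ψ g + act (r g) (ψ h)

/-- 1-coboundaries. -/
def IsCobG (r : G →* GL (Fin 2) k) (ψ : G → M2 k) : Prop :=
  ∃ X : M2 k, X.trace = 0 ∧ ∀ g, ψ g = act (r g) X - X

/-- no subgroup of index `≤ 2` has a common eigenvector in `k²`. -/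
def Irr2 (r : G →* GL (Fin 2) k) : Prop :=
  ∀ H : Subgroup G, (H = ⊤ ∨ H.index = 2) → ∀ v : Fin 2 → k, v ≠ 0 →
    ∃ g ∈ H, ∀ c : k, ((r g : GL (Fin 2) k) : M2 k) *ᵥ v ≠ c • v

end grp

/-! ### basic calculus -/

@[simp] theorem act_one (X : M2 k) : act (1 : GL (Fin 2) k) X = X := by
  simp [act]

theorem act_mul (g h : GL (Fin 2) k) (X : M2 k) : act (g * h) X = act g (act h X) := by
  simp only [act, map_mul, Units.val_mul, _root_.mul_inv_rev, Matrix.mul_smul, Matrix.smul_mul, smul_smul,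
    Matrix.mul_assoc]

@[simp] theorem act_zero (g : GL (Fin 2) k) : act g (0 : M2 k) = 0 := by
  simp [act]

theorem act_add (g : GL (Fin 2) k) (X Y : M2 k) : act g (X + Y) = act g X + act g Y := by
  simp only [act, Matrix.mul_add, Matrix.add_mul, smul_add]

theorem act_sub (g : GL (Fin 2) k) (X Y : M2 k) : act g (X - Y) = act g X - act g Y := by
  simp only [act, Matrix.mul_sub, Matrix.sub_mul, smul_sub]

theorem act_neg (g : GL (Fin 2) k) (X : M2 k) : act g (-X) = -act g X := by
  simp only [act, Matrix.mul_neg, Matrix.neg_mul, smul_neg]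

theorem act_smul (g : GL (Fin 2) k) (a : k) (X : M2 k) : act g (a • X) = a • act g X := by
  simp only [act, Matrix.mul_smul, Matrix.smul_mul, smul_smul, mul_comm]

/-- `act g` as a linear map. -/
def actL (g : GL (Fin 2) k) : M2 k →ₗ[k] M2 k where
  toFun := act g
  map_add' := act_add g
  map_smul' := act_smul g

@[simp] theorem actL_apply (g : GL (Fin 2) k) (X : M2 k) : actL g X = act g X := rfl

theorem trace_act (g : GL (Fin 2) k) (X : M2 k) :
    (act g X).trace = ((Matrix.GeneralLinearGroup.det g : kˣ) : k) * X.trace := by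
  have h : ((g⁻¹ : GL (Fin 2) k) : M2 k) * (g : M2 k) = 1 := by
    rw [← Units.val_mul, inv_mul_cancel, Units.val_one]
  rw [act, Matrix.trace_smul, Matrix.trace_mul_comm, ← Matrix.mul_assoc, h, Matrix.one_mul,
    smul_eq_mul]

/-- the invariant linear form `X ↦ tr (X g)` kills `(g - 1) N` when `det g = 1`. -/
theorem trace_act_sub_mul (g : GL (Fin 2) k) (hg : Matrix.GeneralLinearGroup.det g = 1) (X : M2 k) :
    ((act g X - X) * (g : M2 k)).trace = 0 := by
  have h : ((g⁻¹ : GL (Fin 2) k) : M2 k) * (g : M2 k) = 1 := by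
    rw [← Units.val_mul, inv_mul_cancel, Units.val_one]
  rw [act, hg, Units.val_one, one_smul, Matrix.sub_mul, Matrix.trace_sub, Matrix.mul_assoc, h,
    Matrix.mul_one, Matrix.trace_mul_comm, sub_self]

end Fermat.Agent.S56.T

end
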