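/-
S56 block (T), leaf `Line`: `ad⁰ ⊗ det` has no stable line, in particular no invariants.
-/
import Fermat.Agent.S56.T.Defs

set_option autoImplicit false

open Matrix Polynomial

noncomputable section

namespace Fermat.Agent.S56.T

variable {k : Type*} [Field k] {G : Type*} [Group G]

/-- the kernel of a nonzero `2 × 2` matrix is at most a line -/
theorem Line.ker_line {Y : M2 k} (hY : Y ≠ 0) {v u : Fin 2 → k} (hv : v ≠ 0) (hYv : Y *ᵥ v = 0)
    (hYu : Y *ᵥ u = 0) : ∃ t : k, u = t • v := by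
  have hv0 := congrFun hYv 0
  have hv1 := congrFun hYv 1
  have hu0 := congrFun hYu 0
  have hu1 := congrFun hYu 1
  simp only [Matrix.mulVec_fin_two, Matrix.cons_val_zero, Matrix.cons_val_one, Pi.zero_apply] at hv0 hv1 hu0 hu1
  have hD : u 0 * v 1 - u 1 * v 0 = 0 := by
    by_contra hD
    apply hY
    ext i j
    fin_cases i <;> fin_cases j <;> simp only [Fin.zero_eta, Fin.mk_one, Matrix.zero_apply]
    · have : Y 0 0 * (u 0 * v 1 - u 1 * v 0) = 0 := by linear_combination v 1 * hu0 - u 1 * hv0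
      exact (mul_eq_zero.mp this).resolve_right hD
    · have : Y 0 1 * (u 0 * v 1 - u 1 * v 0) = 0 := by linear_combination u 0 * hv0 - v 0 * hu0
      exact (mul_eq_zero.mp this).resolve_right hD
    · have : Y 1 0 * (u 0 * v 1 - u 1 * v 0) = 0 := by linear_combination v 1 * hu1 - u 1 * hv1
      exact (mul_eq_zero.mp this).resolve_right hD
    · have : Y 1 1 * (u 0 * v 1 - u 1 * v 0) = 0 := by linear_combination u 0 * hv1 - v 0 * hu1
      exact (mul_eq_zero.mp this).resolve_right hD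
  by_cases h0 : v 0 = 0
  · have h1 : v 1 ≠ 0 := by
      intro h1
      apply hv
      ext i
      fin_cases i
      · exact h0
      · exact h1
    refine ⟨u 1 / v 1, ?_⟩
    ext i
    fin_cases i
    · simp only [Fin.zero_eta, Pi.smul_apply, smul_eq_mul]
      field_simp
      linear_combination hD
    · simp only [Fin.mk_one, Pi.smul_apply, smul_eq_mul]
      field_simp
  · refine ⟨u 0 / v 0, ?_⟩
    ext i
    fin_cases i
    · simp only [Fin.zero_eta, Pi.smul_apply, smul_eq_mul]
      field_simp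
    · simp only [Fin.mk_one, Pi.smul_apply, smul_eq_mul]
      field_simp
      linear_combination -hD

/-- a nonzero matrix has a nonzero vector in its image -/
theorem Line.exists_mulVec_ne_zero {Y : M2 k} (hY : Y ≠ 0) : ∃ w : Fin 2 → k, Y *ᵥ w ≠ 0 := by
  by_contra hcon
  push Not at hcon
  apply hY
  have h0 := hcon ![1, 0]
  have h1 := hcon ![0, 1]
  ext i j
  have h0i := congrFun h0 i
  have h1i := congrFun h1 i
  fin_cases i <;> fin_cases j <;> simp_all [Matrix.mulVec_fin_two]

/-- **No stable line in `ad⁰`.**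
PROOF.  `X² = δ • 1`, `δ = - det X` (Cayley-Hamilton, `tr X = 0`; or `Matrix.ext` + `fin_cases` + `ring`).
From `act (r g) X = c • X`: `r g * X = c' • X * r g` with `c' = c / det (r g)`; squaring `c'² δ = δ`.
* `δ = 0`: `X ≠ 0` nilpotent; pick `w` with `v := X *ᵥ w ≠ 0`; then `X *ᵥ v = 0` and `ker X = k v`;
  `X *ᵥ (r g *ᵥ v) = 0` (if `c' ≠ 0`; note `c' ≠ 0` since `act (r g)` is injective), so `r g *ᵥ v ∈ k v` for all `g`:
  contradiction with `hirr ⊤`.
* `δ ≠ 0`: `c' = ± 1`.  `G⁺ := {g | r g * X = X * r g}` is a subgroup, `= ⊤` or of index `2`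
  (`Subgroup.index_eq_two_iff`: the product of two elements with `c' = -1` has `c' = 1`).
  - `δ = λ²`, `λ ∈ k`: `λ ≠ -λ`, `X ≠ ± λ`, pick `v ≠ 0` with `X *ᵥ v = λ • v` (`v := (X + λ) *ᵥ w ≠ 0`); the
    eigenspace is a line (else `X = λ`, trace `2 λ ≠ 0`), stable by `G⁺`: contradiction with `hirr G⁺`.
  - `δ` not a square: for `g ∈ G⁺`, `r g = a + b X` (the commutant of a non scalar `2 × 2` matrix `X` is
    `k + k X`), its characteristic polynomial `(T - a)² - b² δ` splits over `k` (`hsplit`) only if `b = 0`; so `r g` is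
    scalar for all `g ∈ G⁺` and `![1,0]` is a common eigenvector: contradiction with `hirr G⁺`. -/
theorem no_stable_line (h2 : (2 : k) ≠ 0) (r : G →* GL (Fin 2) k)
    (hsplit : ∀ g, Split ((r g : GL (Fin 2) k) : M2 k)) (hirr : Irr2 r)
    {X : M2 k} (hX0 : X ≠ 0) (htr : X.trace = 0) (hst : ∀ g, ∃ c : k, act (r g) X = c • X) : False := by
  classical
  have hinvL : ∀ g : G, (((r g)⁻¹ : GL (Fin 2) k) : M2 k) * ((r g : GL (Fin 2) k) : M2 k) = 1 := by
    intro g
    rw [← Units.val_mul, inv_mul_cancel, Units.val_one]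
  have hinvR : ∀ g : G, ((r g : GL (Fin 2) k) : M2 k) * (((r g)⁻¹ : GL (Fin 2) k) : M2 k) = 1 := by
    intro g
    rw [← Units.val_mul, mul_inv_cancel, Units.val_one]
  have hcancelL : ∀ (g : G) (Y : M2 k), ((r g : GL (Fin 2) k) : M2 k) * Y = 0 → Y = 0 := by
    intro g Y h
    have h3 := congrArg ((((r g)⁻¹ : GL (Fin 2) k) : M2 k) * ·) h
    simpa only [← Matrix.mul_assoc, hinvL, Matrix.one_mul, Matrix.mul_zero] using h3
  have hcancelR : ∀ (g : G) (Y : M2 k), Y * ((r g : GL (Fin 2) k) : M2 k) = 0 → Y = 0 := by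
    intro g Y h
    have h3 := congrArg (· * (((r g)⁻¹ : GL (Fin 2) k) : M2 k)) h
    simpa only [Matrix.mul_assoc, hinvR, Matrix.mul_one, Matrix.zero_mul] using h3
  have hm0 : ∀ g : G, ((r g : GL (Fin 2) k) : M2 k) ≠ 0 := by
    intro g h
    have h3 := hinvR g
    rw [h, Matrix.zero_mul] at h3
    exact zero_ne_one h3
  -- the commutation relation
  have hrel : ∀ g, ∃ c' : k, c' ≠ 0 ∧
      ((r g : GL (Fin 2) k) : M2 k) * X = c' • (X * ((r g : GL (Fin 2) k) : M2 k)) := by
    intro g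
    obtain ⟨c, hc⟩ := hst g
    have hd : ((Matrix.GeneralLinearGroup.det (r g) : kˣ) : k) ≠ 0 := Units.ne_zero _
    have h3 := congrArg (· * ((r g : GL (Fin 2) k) : M2 k)) hc
    simp only [act, Matrix.smul_mul, Matrix.mul_assoc, hinvL, Matrix.mul_one] at h3
    have h4 : ((r g : GL (Fin 2) k) : M2 k) * X =
        (c / ((Matrix.GeneralLinearGroup.det (r g) : kˣ) : k)) • (X * ((r g : GL (Fin 2) k) : M2 k)) := by
      rw [div_eq_inv_mul, mul_smul, ← h3, smul_smul, inv_mul_cancel₀ hd, one_smul]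
    refine ⟨_, ?_, h4⟩
    intro h0
    rw [h0, zero_smul] at h4
    exact hX0 (hcancelL g X h4)
  -- `X ^ 2` is scalar
  have h11 : X 1 1 = - X 0 0 := by
    rw [Matrix.trace_fin_two] at htr
    linear_combination htr
  obtain ⟨δ, hδ⟩ : ∃ δ : k, δ = X 0 0 * X 0 0 + X 0 1 * X 1 0 := ⟨_, rfl⟩
  have hXX : X * X = δ • (1 : M2 k) := by
    ext i j
    fin_cases i <;> fin_cases j <;>
      simp [Matrix.mul_apply, Fin.sum_univ_two, h11, hδ] <;> ring
  have hsq : ∀ (g : G) (c' : k),
      ((r g : GL (Fin 2) k) : M2 k) * X = c' • (X * ((r g : GL (Fin 2) k) : M2 k)) →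
      δ * (1 - c' * c') = 0 := by
    intro g c' hc'
    have h3 : ((r g : GL (Fin 2) k) : M2 k) * (X * X) =
        (c' * c') • ((X * X) * ((r g : GL (Fin 2) k) : M2 k)) := by
      rw [← Matrix.mul_assoc, hc', Matrix.smul_mul, Matrix.mul_assoc, hc', Matrix.mul_smul, smul_smul,
        Matrix.mul_assoc]
    rw [hXX, Matrix.mul_smul, Matrix.mul_one, Matrix.smul_mul, Matrix.one_mul, smul_smul] at h3
    have h4 : (δ * (1 - c' * c')) • ((r g : GL (Fin 2) k) : M2 k) = 0 := by
      rw [mul_sub, mul_one, sub_smul, sub_eq_zero]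
      rw [mul_comm δ (c' * c')]
      exact h3
    exact (smul_eq_zero.mp h4).resolve_right (hm0 g)
  by_cases hδ0 : δ = 0
  · -- nilpotent case
    obtain ⟨w, hw⟩ := Line.exists_mulVec_ne_zero hX0
    have hXv : X *ᵥ (X *ᵥ w) = 0 := by
      rw [Matrix.mulVec_mulVec, hXX, hδ0, zero_smul, Matrix.zero_mulVec]
    obtain ⟨g, -, hg⟩ := hirr ⊤ (Or.inl rfl) (X *ᵥ w) hw
    obtain ⟨c', hc'0, hc'⟩ := hrel g
    have h3 : X *ᵥ (((r g : GL (Fin 2) k) : M2 k) *ᵥ (X *ᵥ w)) = 0 := by
      have h4 : X * ((r g : GL (Fin 2) k) : M2 k) = c'⁻¹ • (((r g : GL (Fin 2) k) : M2 k) * X) := by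
        rw [hc', smul_smul, inv_mul_cancel₀ hc'0, one_smul]
      rw [Matrix.mulVec_mulVec, h4, Matrix.smul_mulVec, ← Matrix.mulVec_mulVec, hXv,
        Matrix.mulVec_zero, smul_zero]
    obtain ⟨t, ht⟩ := Line.ker_line hX0 hw hXv h3
    exact hg t ht
  · -- semisimple case
    have hpm : ∀ g : G, ((r g : GL (Fin 2) k) : M2 k) * X = X * ((r g : GL (Fin 2) k) : M2 k) ∨
        ((r g : GL (Fin 2) k) : M2 k) * X = - (X * ((r g : GL (Fin 2) k) : M2 k)) := by
      intro g
      obtain ⟨c', -, hc'⟩ := hrel g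
      have h3 := (mul_eq_zero.mp (hsq g c' hc')).resolve_left hδ0
      have h4 : (c' - 1) * (c' + 1) = 0 := by linear_combination -h3
      rcases mul_eq_zero.mp h4 with h5 | h5
      · left
        rw [hc', sub_eq_zero.mp h5, one_smul]
      · right
        rw [hc', eq_neg_of_add_eq_zero_left h5, neg_smul, one_smul]
    have hnot : ∀ g : G, ((r g : GL (Fin 2) k) : M2 k) * X = X * ((r g : GL (Fin 2) k) : M2 k) →
        ((r g : GL (Fin 2) k) : M2 k) * X ≠ - (X * ((r g : GL (Fin 2) k) : M2 k)) := by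
      intro g h3 h4
      rw [h3] at h4
      have h5 : (2 : k) • (X * ((r g : GL (Fin 2) k) : M2 k)) = 0 := by
        rw [two_smul]
        nth_rewrite 1 [h4]
        exact neg_add_cancel _
      exact hX0 (hcancelR g X ((smul_eq_zero.mp h5).resolve_left h2))
    let Gp : Subgroup G :=
      { carrier := {g | ((r g : GL (Fin 2) k) : M2 k) * X = X * ((r g : GL (Fin 2) k) : M2 k)}
        mul_mem' := by
          intro a b ha hb
          simp only [Set.mem_ofPred_eq] at ha hb ⊢
          rw [map_mul, Units.val_mul, Matrix.mul_assoc, hb, ← Matrix.mul_assoc, ha, Matrix.mul_assoc]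
        one_mem' := by simp
        inv_mem' := by
          intro a ha
          simp only [Set.mem_ofPred_eq] at ha ⊢
          rw [map_inv]
          have h3 : (((r a)⁻¹ : GL (Fin 2) k) : M2 k) * (((r a : GL (Fin 2) k) : M2 k) * X) *
              (((r a)⁻¹ : GL (Fin 2) k) : M2 k) =
              (((r a)⁻¹ : GL (Fin 2) k) : M2 k) * (X * ((r a : GL (Fin 2) k) : M2 k)) *
              (((r a)⁻¹ : GL (Fin 2) k) : M2 k) := by rw [ha]
          rw [← Matrix.mul_assoc, hinvL, Matrix.one_mul, Matrix.mul_assoc, Matrix.mul_assoc, hinvR,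
            Matrix.mul_one] at h3
          exact h3.symm }
    have hmemGp : ∀ g, g ∈ Gp ↔
        ((r g : GL (Fin 2) k) : M2 k) * X = X * ((r g : GL (Fin 2) k) : M2 k) := fun g => Iff.rfl
    have hidx : Gp = ⊤ ∨ Gp.index = 2 := by
      by_cases htop : Gp = ⊤
      · exact Or.inl htop
      · right
        obtain ⟨a, ha⟩ : ∃ a, a ∉ Gp := by
          by_contra hcon
          push Not at hcon
          exact htop (eq_top_iff.mpr fun g _ => hcon g)
        have ha' := (hpm a).resolve_left ha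
        rw [Subgroup.index_eq_two_iff]
        refine ⟨a, fun b => ?_⟩
        by_cases hb : b ∈ Gp
        · refine Or.inr ⟨hb, ?_⟩
          intro hba
          refine hnot (b * a) hba ?_
          rw [map_mul, Units.val_mul, Matrix.mul_assoc, ha', Matrix.mul_neg, ← Matrix.mul_assoc,
            (hmemGp b).mp hb, Matrix.mul_assoc]
        · refine Or.inl ⟨?_, hb⟩
          have hb' := (hpm b).resolve_left hb
          rw [hmemGp, map_mul, Units.val_mul, Matrix.mul_assoc, ha', Matrix.mul_neg, ← Matrix.mul_assoc,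
            hb', Matrix.neg_mul, neg_neg, Matrix.mul_assoc]
    -- a common eigenvector of `Gp`
    have key : ∃ v : Fin 2 → k, v ≠ 0 ∧ ∀ g ∈ Gp, ∃ t : k, ((r g : GL (Fin 2) k) : M2 k) *ᵥ v = t • v := by
      by_cases hsqr : ∃ l : k, δ = l * l
      · obtain ⟨l, hl⟩ := hsqr
        have hl0 : l ≠ 0 := by
          rintro rfl
          exact hδ0 (by rw [hl, mul_zero])
        have hne : ∀ s : k, s ≠ 0 → X - s • (1 : M2 k) ≠ 0 := by
          intro s hs h
          have h3 := congrArg Matrix.trace h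
          rw [Matrix.trace_sub, htr, Matrix.trace_smul, Matrix.trace_one, Matrix.trace_zero] at h3
          simp only [Fintype.card_fin, Nat.cast_ofNat, smul_eq_mul, zero_sub, neg_eq_zero,
            mul_eq_zero] at h3
          rcases h3 with h3 | h3
          · exact hs h3
          · exact h2 h3
        obtain ⟨w, hw⟩ := Line.exists_mulVec_ne_zero (hne (-l) (neg_ne_zero.mpr hl0))
        have hprod : (X - l • (1 : M2 k)) * (X - (-l) • (1 : M2 k)) = 0 := by
          rw [neg_smul, sub_neg_eq_add, Matrix.sub_mul, Matrix.mul_add, Matrix.mul_add, hXX, hl]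
          simp only [Matrix.mul_smul, Matrix.smul_mul, Matrix.mul_one, Matrix.one_mul, smul_smul]
          abel
        refine ⟨(X - (-l) • (1 : M2 k)) *ᵥ w, hw, fun g hg => ?_⟩
        have hv : (X - l • (1 : M2 k)) *ᵥ ((X - (-l) • (1 : M2 k)) *ᵥ w) = 0 := by
          rw [Matrix.mulVec_mulVec, hprod, Matrix.zero_mulVec]
        have hcomm : (X - l • (1 : M2 k)) * ((r g : GL (Fin 2) k) : M2 k) =
            ((r g : GL (Fin 2) k) : M2 k) * (X - l • (1 : M2 k)) := by
          rw [Matrix.sub_mul, Matrix.mul_sub, (hmemGp g).mp hg]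
          simp only [Matrix.mul_smul, Matrix.smul_mul, Matrix.mul_one, Matrix.one_mul]
        have hgv : (X - l • (1 : M2 k)) *ᵥ
            (((r g : GL (Fin 2) k) : M2 k) *ᵥ ((X - (-l) • (1 : M2 k)) *ᵥ w)) = 0 := by
          rw [Matrix.mulVec_mulVec, hcomm, ← Matrix.mulVec_mulVec, hv, Matrix.mulVec_zero]
        exact Line.ker_line (hne l hl0) hw hv hgv
      · refine ⟨![1, 0], by simp, fun g hg => ?_⟩
        -- `r g` is scalar
        by_cases hscal : ∃ s : k, ((r g : GL (Fin 2) k) : M2 k) = s • (1 : M2 k)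
        · obtain ⟨s, hs⟩ := hscal
          exact ⟨s, by rw [hs, Matrix.smul_mulVec, Matrix.one_mulVec]⟩
        · exfalso
          push Not at hscal
          obtain ⟨α, β, hαβ⟩ := hsplit g
          have hCH : (((r g : GL (Fin 2) k) : M2 k) - α • (1 : M2 k)) *
              (((r g : GL (Fin 2) k) : M2 k) - β • (1 : M2 k)) = 0 := by
            have h3 := Matrix.aeval_self_charpoly ((r g : GL (Fin 2) k) : M2 k)
            rw [hαβ] at h3
            simpa [Algebra.algebraMap_eq_smul_one] using h3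
          have hneβ : ((r g : GL (Fin 2) k) : M2 k) - β • (1 : M2 k) ≠ 0 :=
            fun h => hscal β (sub_eq_zero.mp h)
          have hneα : ((r g : GL (Fin 2) k) : M2 k) - α • (1 : M2 k) ≠ 0 :=
            fun h => hscal α (sub_eq_zero.mp h)
          obtain ⟨w, hw⟩ := Line.exists_mulVec_ne_zero hneβ
          have hv : (((r g : GL (Fin 2) k) : M2 k) - α • (1 : M2 k)) *ᵥ
              ((((r g : GL (Fin 2) k) : M2 k) - β • (1 : M2 k)) *ᵥ w) = 0 := by
            rw [Matrix.mulVec_mulVec, hCH, Matrix.zero_mulVec]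
          have hcomm : (((r g : GL (Fin 2) k) : M2 k) - α • (1 : M2 k)) * X =
              X * (((r g : GL (Fin 2) k) : M2 k) - α • (1 : M2 k)) := by
            rw [Matrix.sub_mul, Matrix.mul_sub, (hmemGp g).mp hg]
            simp only [Matrix.mul_smul, Matrix.smul_mul, Matrix.mul_one, Matrix.one_mul]
          have hXv : (((r g : GL (Fin 2) k) : M2 k) - α • (1 : M2 k)) *ᵥ
              (X *ᵥ ((((r g : GL (Fin 2) k) : M2 k) - β • (1 : M2 k)) *ᵥ w)) = 0 := by
            rw [Matrix.mulVec_mulVec, hcomm, ← Matrix.mulVec_mulVec, hv, Matrix.mulVec_zero]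
          obtain ⟨t, ht⟩ := Line.ker_line hneα hw hv hXv
          apply hsqr
          refine ⟨t, ?_⟩
          have h5 : (X * X) *ᵥ ((((r g : GL (Fin 2) k) : M2 k) - β • (1 : M2 k)) *ᵥ w) =
              (t * t) • ((((r g : GL (Fin 2) k) : M2 k) - β • (1 : M2 k)) *ᵥ w) := by
            rw [← Matrix.mulVec_mulVec, ht, Matrix.mulVec_smul, ht, smul_smul]
          rw [hXX, Matrix.smul_mulVec, Matrix.one_mulVec, ← sub_eq_zero, ← sub_smul] at h5
          exact sub_eq_zero.mp ((smul_eq_zero.mp h5).resolve_right hw)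
    obtain ⟨v, hv, hkey⟩ := key
    obtain ⟨g, hgG, hg⟩ := hirr Gp hidx v hv
    obtain ⟨t, ht⟩ := hkey g hgG
    exact hg t ht

/-- no invariants -/
theorem eq_zero_of_invariant (h2 : (2 : k) ≠ 0) (r : G →* GL (Fin 2) k)
    (hsplit : ∀ g, Split ((r g : GL (Fin 2) k) : M2 k)) (hirr : Irr2 r)
    {X : M2 k} (htr : X.trace = 0) (hst : ∀ g, act (r g) X = X) : X = 0 := by
  by_contra hX0
  exact no_stable_line h2 r hsplit hirr hX0 htr fun g => ⟨1, by rw [hst g, one_smul]⟩

end Fermat.Agent.S56.T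

end
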