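/-
S56 block (T), leaf `RegBasic`: calculus of `Split` and `Reg` for `2 × 2` matrices.
-/
import Fermat.Agent.S56.T.Defs

set_option autoImplicit false

open Matrix Polynomial

noncomputable section

namespace Fermat.Agent.S56.T

variable {k : Type*} [Field k]

/-- Cayley-Hamilton for `2 × 2` matrices. -/
theorem RegBasic_cayley (n : M2 k) : n * n = n.trace • n - n.det • (1 : M2 k) := by
  ext i j
  fin_cases i <;> fin_cases j <;>
    simp [Matrix.mul_apply, Fin.sum_univ_two, Matrix.trace_fin_two, Matrix.det_fin_two] <;> ring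

/-- the characteristic polynomial in terms of trace and determinant. -/
theorem RegBasic_charpoly_iff (m : M2 k) (α β : k) :
    m.charpoly = (X - C α) * (X - C β) ↔ m.trace = α + β ∧ m.det = α * β := by
  rw [Matrix.charpoly_fin_two]
  constructor
  · intro h
    have h0 := congrArg (Polynomial.eval 0) h
    have h1 := congrArg (Polynomial.eval 1) h
    simp only [eval_add, eval_sub, eval_mul, eval_pow, eval_X, eval_C] at h0 h1
    have hd : m.det = α * β := by linear_combination h0
    exact ⟨by linear_combination hd - h1, hd⟩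
  · rintro ⟨h1, h2⟩
    rw [h1, h2, C_add, C_mul]
    ring

/-- Cayley-Hamilton: every power of a `2 × 2` matrix is `s + t g`
(induction; `g² = tr g • g - det g • 1`, `Matrix.ext`, `fin_cases`, `ring`). -/
theorem exists_pow_eq (m : M2 k) (b : ℕ) : ∃ s t : k, m ^ b = s • (1 : M2 k) + t • m := by
  induction b with
  | zero => exact ⟨1, 0, by simp⟩
  | succ b ih =>
    obtain ⟨s, t, h⟩ := ih
    refine ⟨-(t * m.det), s + t * m.trace, ?_⟩
    rw [pow_succ, h, add_mul, smul_mul_assoc, smul_mul_assoc, one_mul, RegBasic_cayley]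
    module

/-- `Split` and not `Reg`: `(m - α)² = 0`.
(`charpoly = (X - α)(X - β)`, `α = β` as not `Reg`; `Matrix.aeval_self_charpoly`.) -/
theorem exists_sub_sq_eq_zero {m : M2 k} (hs : Split m) (hr : ¬ Reg m) :
    ∃ α : k, m.charpoly = (X - C α) * (X - C α) ∧ (m - α • (1 : M2 k)) * (m - α • (1 : M2 k)) = 0 := by
  obtain ⟨α, β, h⟩ := hs
  have hαβ : α = β := by
    by_contra hne
    exact hr ⟨α, β, hne, h⟩
  subst hαβ
  refine ⟨α, h, ?_⟩
  obtain ⟨h1, h2⟩ := (RegBasic_charpoly_iff m α α).1 h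
  simp only [sub_mul, mul_sub, smul_mul_assoc, mul_smul_comm, one_mul, mul_one]
  rw [RegBasic_cayley, h1, h2]
  module

/-- powers of `α + N`, `N² = 0`. -/
theorem RegBasic_pow_eq {N : M2 k} (hN : N * N = 0) (α : k) (b : ℕ) :
    ∃ c : k, (α • (1 : M2 k) + N) ^ b = α ^ b • (1 : M2 k) + c • N := by
  induction b with
  | zero => exact ⟨0, by simp⟩
  | succ b ih =>
    obtain ⟨c, h⟩ := ih
    refine ⟨α ^ b + c * α, ?_⟩
    rw [pow_succ, h]
    simp only [add_mul, mul_add, smul_mul_assoc, mul_smul_comm, one_mul, mul_one, hN, smul_zero]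
    module

/-- If a power of a split matrix is regular, so is the matrix.
(Otherwise `m = α + N`, `N² = 0`, `m ^ b = α ^ b + b α ^ (b-1) N`, `(m ^ b - α ^ b)² = 0`; a matrix `M` with
`charpoly = (X - α')(X - β')`, `α' ≠ β'` and `(M - γ)² = 0`: trace and determinant give `α' + β' = 2 γ`,
`α' β' = γ²` (the characteristic polynomial of `γ + nilpotent` is `(X - γ)²`), so `(α' - β')² = 0`.) -/
theorem Reg.of_pow {m : M2 k} (hs : Split m) {b : ℕ} (h : Reg (m ^ b)) : Reg m := by
  by_contra hr
  obtain ⟨α, hc, hN⟩ := exists_sub_sq_eq_zero hs hr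
  obtain ⟨htr, -⟩ := (RegBasic_charpoly_iff m α α).1 hc
  obtain ⟨c, hM⟩ := RegBasic_pow_eq hN α b
  rw [add_sub_cancel] at hM
  obtain ⟨α', β', hne, hch⟩ := h
  obtain ⟨h1, h2⟩ := (RegBasic_charpoly_iff _ α' β').1 hch
  have htrN : (m - α • (1 : M2 k)).trace = 0 := by
    rw [Matrix.trace_sub, Matrix.trace_smul, Matrix.trace_one, htr]
    simp
    ring
  have htrM : (m ^ b).trace = 2 * α ^ b := by
    rw [hM, Matrix.trace_add, Matrix.trace_smul, Matrix.trace_smul, htrN, Matrix.trace_one]
    simp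
    ring
  have hsq : m ^ b * m ^ b = (2 * α ^ b) • m ^ b - (α ^ b * α ^ b) • (1 : M2 k) := by
    rw [hM]
    simp only [add_mul, mul_add, smul_mul_assoc, mul_smul_comm, one_mul, mul_one, hN, smul_zero]
    module
  have hdet : (m ^ b).det = α ^ b * α ^ b := by
    have h3 := RegBasic_cayley (m ^ b)
    rw [hsq, htrM] at h3
    have h4 : (α ^ b * α ^ b) • (1 : M2 k) = (m ^ b).det • (1 : M2 k) := sub_right_injective h3
    have h5 := congrFun (congrFun h4 0) 0
    simpa using h5.symm
  apply hne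
  have h6 : (α' - β') ^ 2 = 0 := by
    have e1 : α' + β' = 2 * α ^ b := h1.symm.trans htrM
    have e2 : α' * β' = α ^ b * α ^ b := h2.symm.trans hdet
    linear_combination (α' + β' + 2 * α ^ b) * e1 - 4 * e2
  exact sub_eq_zero.1 (pow_eq_zero_iff (two_ne_zero) |>.1 h6)

/-- for a regular element the invariant form `X ↦ tr (X m)` does not vanish on the trace zero matrices:
`Y := m - (tr m / 2)`, `tr (Y m) = tr (m²) - (tr m)²/2 = (α - β)²/2 ≠ 0`
(`tr m = α + β`, `det m = α β` from the coefficients of the characteristic polynomial, `Matrix.charpoly_fin_two`). -/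
theorem Reg.exists_trace_mul_ne_zero (h2 : (2 : k) ≠ 0) {m : M2 k} (h : Reg m) :
    ∃ Y : M2 k, Y.trace = 0 ∧ (Y * m).trace ≠ 0 := by
  obtain ⟨α, β, hne, hch⟩ := h
  obtain ⟨h1, hd⟩ := (RegBasic_charpoly_iff m α β).1 hch
  have hone : (1 : M2 k).trace = 2 := by
    rw [Matrix.trace_one]
    simp
  refine ⟨m - (m.trace / 2) • (1 : M2 k), ?_, ?_⟩
  · rw [Matrix.trace_sub, Matrix.trace_smul, hone, smul_eq_mul]
    field_simp
    ring
  · rw [sub_mul, smul_mul_assoc, one_mul, RegBasic_cayley, Matrix.trace_sub, Matrix.trace_sub,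
      Matrix.trace_smul, Matrix.trace_smul, Matrix.trace_smul, hone, h1, hd]
    simp only [smul_eq_mul]
    have h3 : (α + β) * (α + β) - α * β * 2 - (α + β) / 2 * (α + β) = (α - β) ^ 2 / 2 := by
      field_simp
      ring
    rw [h3]
    exact div_ne_zero (pow_ne_zero 2 (sub_ne_zero.2 hne)) h2

end Fermat.Agent.S56.T

end
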