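/-
S56 block (T): the Galois side.  DEFINITIONS: the module `N = ad⁰ ρbar ⊗ det ρbar = ad⁰ ρbar (1)` inside `End_k(V)`, its
cocycles; the matrix form of `ρbar`; the cyclotomic character mod `p ^ (n+1)`.
-/
import Fermat.Agent.S56.T.Defs
import Fermat.Agent.GAL.Cyclo
import Fermat.Prelude.Def_GaloisRep_LocalConditions

set_option autoImplicit false

open Matrix Polynomial

noncomputable section

namespace Fermat.Agent.S56.T

abbrev Qb : Type := AlgebraicClosure ℚ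
abbrev GQ : Type := AlgebraicClosure ℚ ≃ₐ[ℚ] AlgebraicClosure ℚ

variable {k : Type} [Field k]

/-- the twisted adjoint action of `G_ℚ` on `End_k(V)`:  `g · X = det ρ(g) • ρ(g) X ρ(g)⁻¹`. -/
def actE (ρ : ResidualGaloisRep k) (g : GQ) (X : Module.End k ρ.V) : Module.End k ρ.V :=
  LinearMap.det (ρ.ρ g) • (ρ.ρ g * X * ρ.ρ g⁻¹)

/-- continuous 1-cocycles of `G_ℚ` with values in `N = ad⁰ ρ ⊗ det ρ`. -/
structure IsCocE (ρ : ResidualGaloisRep k) (ψ : GQ → Module.End k ρ.V) : Prop where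
  trace_eq : ∀ g, LinearMap.trace k ρ.V (ψ g) = 0
  coc : ∀ g h, ψ (g * h) = ψ g + actE ρ g (ψ h)
  smooth : ∃ L : IntermediateField ℚ Qb, FiniteDimensional ℚ L ∧
    ∀ τ : GQ, (∀ x ∈ L, τ x = x) → ∀ g, ψ (g * τ) = ψ g

/-- 1-coboundaries. -/
def IsCobE (ρ : ResidualGaloisRep k) (ψ : GQ → Module.End k ρ.V) : Prop :=
  ∃ X : Module.End k ρ.V, LinearMap.trace k ρ.V X = 0 ∧ ∀ g, ψ g = actE ρ g X - X

/-- a basis of `V`. -/
def bas (ρ : ResidualGaloisRep k) : Module.Basis (Fin 2) k ρ.V :=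
  Module.finBasisOfFinrankEq k ρ.V ρ.finrank_eq

/-- the matrix form of `ρ`. -/
def matRep (ρ : ResidualGaloisRep k) : GQ →* GL (Fin 2) k :=
  (Units.map (LinearMap.toMatrixAlgEquiv (bas ρ)).toRingEquiv.toMonoidHom).comp ρ.ρ.toHomUnits

/-- the matrix form of a cochain. -/
def matCoc (ρ : ResidualGaloisRep k) (ψ : GQ → Module.End k ρ.V) : GQ → M2 k :=
  fun g => LinearMap.toMatrixAlgEquiv (bas ρ) (ψ g)

/-- the cyclotomic character mod `p ^ (n+1)`. -/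
def chiN (p : ℕ) [Fact p.Prime] (n : ℕ) : GQ →* (ZMod (p ^ (n + 1)))ˣ :=
  (Units.map (PadicInt.toZModPow (p := p) (n + 1)).toMonoidHom).comp (Fermat.Agent.GAL.Cyclo.eps p)

end Fermat.Agent.S56.T

end
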