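/-
S56 block (T), leaf `Cyc`: the cyclotomic character mod `p ^ (n+1)`.
-/
import Fermat.Agent.S56.T.Gal
import Fermat.Agent.GAL.S31.RootsOfUnity
import Fermat.Agent.Lib.Frobenius

set_option autoImplicit false

open Matrix Polynomial Fermat.Agent.GAL.Cyclo

noncomputable section

namespace Fermat.Agent.S56.T

variable {k : Type} [Field k] (p : ℕ) [Fact p.Prime]

theorem isCyclic_units_zmod_pow (hp2 : p ≠ 2) (n : ℕ) : IsCyclic (ZMod (p ^ (n + 1)))ˣ :=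
  ZMod.isCyclic_units_of_prime_pow p Fact.out hp2 (n + 1)

/-- (`eps_spec` with exponent `n + 1`; `σ ∈ ker` means `toZModPow (n+1) (eps p σ) = 1`, `ZMod.val_one`;
conversely apply the hypothesis to a primitive root, as in `eps_cont`.) -/
theorem Cyc_mem_ker_chiN (n : ℕ) (σ : GQ) :
    σ ∈ (chiN p n).ker ↔ ((eps p σ : ℤ_[p]ˣ) : ℤ_[p]).toZModPow (n + 1) = 1 := by
  rw [MonoidHom.mem_ker, Units.ext_iff]
  rfl

theorem mem_ker_chiN_iff (n : ℕ) (σ : GQ) :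
    σ ∈ (chiN p n).ker ↔ ∀ t : Qb, t ^ p ^ (n + 1) = 1 → σ t = t := by
  have hp : p.Prime := Fact.out
  have hlt : 1 < p ^ (n + 1) := Nat.one_lt_pow (Nat.succ_ne_zero n) hp.one_lt
  have : Fact (1 < p ^ (n + 1)) := ⟨hlt⟩
  rw [Cyc_mem_ker_chiN]
  constructor
  · intro h t ht
    rw [eps_spec p σ ht, h, ZMod.val_one, pow_one]
  · intro h
    obtain ⟨ζ, hζ⟩ := HasEnoughRootsOfUnity.exists_primitiveRoot Qb (p ^ (n + 1))
    have hfix : σ ζ = ζ := h ζ hζ.pow_eq_one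
    have h1 := eps_spec p σ hζ.pow_eq_one
    rw [hfix] at h1
    have h2 : ζ ^ 1 = ζ ^ (((eps p σ : ℤ_[p]ˣ) : ℤ_[p]).toZModPow (n + 1)).val := by
      rw [pow_one]; exact h1
    have h3 := hζ.pow_inj hlt (ZMod.val_lt _) h2
    have h4 : (1 : ZMod (p ^ (n + 1))).val
        = (((eps p σ : ℤ_[p]ˣ) : ℤ_[p]).toZModPow (n + 1)).val := by
      rw [ZMod.val_one (p ^ (n + 1))]; exact h3
    exact (ZMod.val_injective _ h4).symm

/-- (`F := ℚ(ζ)`, `ζ` a primitive `p ^ (n+1)`-th root of unity: every root of unity is a power of `ζ`.) -/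
theorem exists_field_chiN (n : ℕ) : ∃ F : IntermediateField ℚ Qb, FiniteDimensional ℚ F ∧
    ∀ τ : GQ, (∀ x ∈ F, τ x = x) → τ ∈ (chiN p n).ker := by
  obtain ⟨F, hF, h⟩ := eps_cont p (n + 1)
  refine ⟨F, hF, fun τ hτ => ?_⟩
  have h1 := h τ hτ
  rw [← Ideal.mem_span_singleton, ← PadicInt.ker_toZModPow, RingHom.mem_ker, map_sub, map_one,
    sub_eq_zero] at h1
  exact (Cyc_mem_ker_chiN p n τ).mpr h1

variable {p}

/-- A Frobenius element at `q ≠ p` in the kernel of `chiN p n`: `q ≡ 1 mod p ^ (n+1)`.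
(`ζ` primitive `p ^ (n+1)`-th root of unity; `φ ζ = ζ ^ q` by `frobenius_apply_root`, `φ ζ = ζ` by `mem_ker_chiN_iff`;
`IsPrimitiveRoot.pow_inj`/`IsPrimitiveRoot.dvd_of_pow_eq_one` applied to `ζ ^ (q - 1) = 1`.) -/
theorem dvd_sub_one_of_frobenius {n q : ℕ} (hq : q.Prime) (hqp : q ≠ p) {P : ValuationSubring Qb}
    (hP : P.LiesOverPrime q) {φ : GQ} (hφ : P.IsFrobeniusAt φ q) (hker : φ ∈ (chiN p n).ker) :
    p ^ (n + 1) ∣ q - 1 := by
  have h1 := (Cyc_mem_ker_chiN p n φ).mp hker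
  rw [eps_frobenius p hq hqp hP hφ, map_natCast] at h1
  have h2 : ((q - 1 : ℕ) : ZMod (p ^ (n + 1))) = 0 := by
    rw [Nat.cast_sub hq.one_le, h1]
    simp
  exact (ZMod.natCast_eq_zero_iff _ _).mp h2

end Fermat.Agent.S56.T

end
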