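/-
S56 block (T), leaf `CycDet`: the determinant of `ρbar` is the cyclotomic character mod `p`.
-/
import Fermat.Agent.S56.T.Cyc

set_option autoImplicit false

open Matrix Polynomial Fermat.Agent.GAL.Cyclo

noncomputable section

namespace Fermat.Agent.S56.T

variable {k : Type} [Field k] {p : ℕ} [Fact p.Prime]

omit [Fact p.Prime] in
theorem CycDet_natCast_eq_zero {ρ : ResidualGaloisRep k}
    (hdet : (GaloisRepAdic.ofResidualGaloisRep ρ).DetIsCyclotomic p) : (p : k) = 0 := by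
  have h := hdet.1
  rwa [IsLocalRing.maximalIdeal_eq_bot, Ideal.mem_bot] at h

/-- (`hdet.1 : (p : k) ∈ maximalIdeal k = ⊥`; `CharP.ofPrime..`/`ringChar`, `CharP.charP_iff_prime_eq_zero`.) -/
theorem charP_of_det {ρ : ResidualGaloisRep k}
    (hdet : (GaloisRepAdic.ofResidualGaloisRep ρ).DetIsCyclotomic p) : CharP k p :=
  (CharP.charP_iff_prime_eq_zero Fact.out).2 (CycDet_natCast_eq_zero hdet)

/-- the determinant is the cyclotomic character mod `p`: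
(`hdet.2 1 σ a`; `Ideal.span {((p ^ 1 : ℕ) : k)} = ⊥` as `(p : k) = 0`). -/
theorem det_eq_of_actsBy {ρ : ResidualGaloisRep k}
    (hdet : (GaloisRepAdic.ofResidualGaloisRep ρ).DetIsCyclotomic p) {σ : GQ} {a : ℕ}
    (h : ∀ μ : Qb, μ ^ p = 1 → σ μ = μ ^ a) : LinearMap.det (ρ.ρ σ) = (a : k) := by
  have h1 := hdet.2 1 σ a (fun μ hμ => h μ (by rwa [pow_one] at hμ))
  rw [pow_one, CycDet_natCast_eq_zero hdet, Ideal.span_singleton_eq_bot.2 rfl, Ideal.mem_bot,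
    sub_eq_zero] at h1
  exact h1

/-- (`mem_ker_chiN_iff`: `σ` fixes `μ_p ⊆ μ_{p^(n+1)}`; `det_eq_of_actsBy` with `a = 1`.) -/
theorem det_eq_one_of_mem_ker {ρ : ResidualGaloisRep k}
    (hdet : (GaloisRepAdic.ofResidualGaloisRep ρ).DetIsCyclotomic p) {n : ℕ} {σ : GQ}
    (hσ : σ ∈ (chiN p n).ker) : LinearMap.det (ρ.ρ σ) = 1 := by
  have h1 := (mem_ker_chiN_iff p n σ).1 hσ
  have h2 := det_eq_of_actsBy hdet (σ := σ) (a := 1) (fun μ hμ => by
    rw [pow_one]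
    refine h1 μ ?_
    rw [pow_succ', pow_mul, hμ, one_pow])
  rw [h2, Nat.cast_one]

/-- **The determinant is onto `𝔽_p^×`.**  Dirichlet (`Nat.forall_exists_prime_gt_and_eq_mod`): a prime `ℓ > p`, `ℓ ≡ j mod p`;
a Frobenius element `σ` at `ℓ` (`Fermat.Agent.Lib.Frobenius.exists_frobenius`) acts on `μ_p` by `μ ↦ μ ^ ℓ`
(`Fermat.Agent.GAL.S31.frobenius_apply_root`); `det_eq_of_actsBy`; `(ℓ : k) = (j : k)` (`charP_of_det`,
`CharP.natCast_eq_natCast` / `ZMod.natCast_eq_natCast_iff`). -/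
theorem exists_det_eq {ρ : ResidualGaloisRep k}
    (hdet : (GaloisRepAdic.ofResidualGaloisRep ρ).DetIsCyclotomic p) (j : ℕ) (hj : ¬ p ∣ j) :
    ∃ g : GQ, LinearMap.det (ρ.ρ g) = (j : k) := by
  have hp : p.Prime := Fact.out
  have hu : IsUnit (j : ZMod p) := by
    rw [ZMod.isUnit_iff_coprime]
    exact ((Nat.Prime.coprime_iff_not_dvd hp).2 hj).symm
  obtain ⟨ℓ, hℓp, hℓ, hℓj⟩ := Nat.forall_exists_prime_gt_and_eq_mod hu p
  obtain ⟨A, σ, hA, hσ⟩ := Fermat.Agent.Lib.Frobenius.exists_frobenius hℓ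
  have hnd : ¬ ℓ ∣ p := fun h => by
    have := Nat.le_of_dvd hp.pos h
    omega
  refine ⟨σ, ?_⟩
  rw [det_eq_of_actsBy hdet (σ := σ) (a := ℓ)
    (fun μ hμ => Fermat.Agent.GAL.S31.frobenius_apply_root A hℓ hA hσ hnd hμ)]
  have := charP_of_det hdet
  rw [CharP.natCast_eq_natCast k p]
  exact (ZMod.natCast_eq_natCast_iff _ _ _).1 hℓj

end Fermat.Agent.S56.T

end
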