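/-
S56 block (T), leaf `Mat`: dictionary between `End_k(V)` and `2 × 2` matrices.
-/
import Fermat.Agent.S56.T.Gal

set_option autoImplicit false

open Matrix Polynomial

noncomputable section

namespace Fermat.Agent.S56.T

variable {k : Type} [Field k] (ρ : ResidualGaloisRep k)

theorem coe_matRep (g : GQ) :
    ((matRep ρ g : GL (Fin 2) k) : M2 k) = LinearMap.toMatrixAlgEquiv (bas ρ) (ρ.ρ g) := rfl

/-- (`LinearMap.det_toMatrix`, `LinearMap.toMatrixAlgEquiv_apply'`/`LinearMap.toMatrixAlgEquiv` vs `LinearMap.toMatrix`.) -/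
theorem det_matRep (g : GQ) :
    ((Matrix.GeneralLinearGroup.det (matRep ρ g) : kˣ) : k) = LinearMap.det (ρ.ρ g) := by
  rw [Matrix.GeneralLinearGroup.val_det_apply, coe_matRep]
  exact LinearMap.det_toMatrix (bas ρ) (ρ.ρ g)

/-- (`LinearMap.charpoly_toMatrix`.) -/
theorem charpoly_matRep (g : GQ) :
    ((matRep ρ g : GL (Fin 2) k) : M2 k).charpoly = LinearMap.charpoly (ρ.ρ g) := by
  rw [coe_matRep]
  exact LinearMap.charpoly_toMatrix (ρ.ρ g) (bas ρ)

/-- (`LinearMap.trace_eq_matrix_trace`.) -/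
theorem trace_toMatrix (X : Module.End k ρ.V) :
    (LinearMap.toMatrixAlgEquiv (bas ρ) X).trace = LinearMap.trace k ρ.V X :=
  (LinearMap.trace_eq_matrix_trace k (bas ρ) X).symm

/-- (`map_mul`, `map_smul`; `(matRep ρ g)⁻¹ = matRep ρ g⁻¹`.) -/
theorem toMatrix_actE (g : GQ) (X : Module.End k ρ.V) :
    LinearMap.toMatrixAlgEquiv (bas ρ) (actE ρ g X) =
      act (matRep ρ g) (LinearMap.toMatrixAlgEquiv (bas ρ) X) := by
  rw [actE, act, map_smul, map_mul, map_mul, det_matRep, ← map_inv, coe_matRep, coe_matRep]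

theorem isCocG_matCoc {ψ : GQ → Module.End k ρ.V} (hψ : IsCocE ρ ψ) :
    IsCocG (matRep ρ) (matCoc ρ ψ) := by
  refine ⟨fun g => ?_, fun g h => ?_⟩
  · rw [matCoc, trace_toMatrix, hψ.trace_eq]
  · rw [matCoc, matCoc, matCoc, hψ.coc, map_add, toMatrix_actE]

/-- (apply `(LinearMap.toMatrixAlgEquiv (bas ρ)).symm`.) -/
theorem isCobE_of_isCobG {ψ : GQ → Module.End k ρ.V} (h : IsCobG (matRep ρ) (matCoc ρ ψ)) :
    IsCobE ρ ψ := by
  obtain ⟨X, hX, h⟩ := h
  refine ⟨(LinearMap.toMatrixAlgEquiv (bas ρ)).symm X, ?_, fun g => ?_⟩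
  · rw [← trace_toMatrix, AlgEquiv.apply_symm_apply, hX]
  · apply (LinearMap.toMatrixAlgEquiv (bas ρ)).injective
    rw [map_sub, toMatrix_actE, AlgEquiv.apply_symm_apply]
    exact h g

theorem trace_matCoc_mul (ψ : GQ → Module.End k ρ.V) (g : GQ) :
    (matCoc ρ ψ g * ((matRep ρ g : GL (Fin 2) k) : M2 k)).trace =
      LinearMap.trace k ρ.V (ψ g * ρ.ρ g) := by
  rw [← trace_toMatrix, map_mul, coe_matRep, matCoc]

theorem split_matRep
    (hsplit : ∀ σ : GQ, ∃ α β : k, LinearMap.charpoly (ρ.ρ σ) = (X - C α) * (X - C β)) (g : GQ) :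
    Split ((matRep ρ g : GL (Fin 2) k) : M2 k) := by
  obtain ⟨α, β, h⟩ := hsplit g
  exact ⟨α, β, by rw [charpoly_matRep, h]⟩

end Fermat.Agent.S56.T

end
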