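/-
S56 block (T), leaf `MatIrr`: the irreducibility hypotheses of S56 in matrix form.
-/
import Fermat.Agent.S56.T.Mat

set_option autoImplicit false

open Matrix Polynomial
open scoped TensorProduct

noncomputable section

namespace Fermat.Agent.S56.T

variable {k : Type} [Field k] (ρ : ResidualGaloisRep k)

/-- a common eigenvector of `matRep ρ g`, `g ∈ H`, gives a common eigenvector in `V`. -/
theorem MatIrr_exists_eigen (H : Subgroup GQ) (v : Fin 2 → k) (hv : v ≠ 0)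
    (hH : ∀ g ∈ H, ∃ c : k, ((matRep ρ g : GL (Fin 2) k) : M2 k) *ᵥ v = c • v) :
    ∃ w : ρ.V, w ≠ 0 ∧ ∀ g ∈ H, ∃ c : k, ρ.ρ g w = c • w := by
  refine ⟨(bas ρ).equivFun.symm v, ?_, fun g hg => ?_⟩
  · intro h0
    apply hv
    have := congrArg (bas ρ).equivFun h0
    rwa [LinearEquiv.apply_symm_apply, map_zero] at this
  · obtain ⟨c, hc⟩ := hH g hg
    refine ⟨c, ?_⟩
    apply (bas ρ).equivFun.injective
    rw [map_smul, LinearEquiv.apply_symm_apply, ← hc, coe_matRep]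
    have h1 := LinearMap.toMatrix_mulVec_repr (bas ρ) (bas ρ) (ρ.ρ g) ((bas ρ).equivFun.symm v)
    have h2 : ⇑((bas ρ).repr ((bas ρ).equivFun.symm v)) = v :=
      (bas ρ).equivFun.apply_symm_apply v
    rw [h2] at h1
    exact h1.symm

/-- a stable line of `V` gives a stable line after any base change. -/
theorem MatIrr_line (K : Type) [Field K] [Algebra k K] (H : Subgroup GQ) (w : ρ.V) (hw : w ≠ 0)
    (hH : ∀ g ∈ H, ∃ c : k, ρ.ρ g w = c • w) :
    ∃ V : Submodule K (ρ.baseChange K).V,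
      (∀ σ ∈ H, ∀ x ∈ V, (ρ.baseChange K).ρ σ x ∈ V) ∧ V ≠ ⊥ ∧ V ≠ ⊤ := by
  have hw1 : (1 : K) ⊗ₜ[k] w ≠ 0 := by
    intro h0
    exact hw ((Module.FaithfullyFlat.one_tmul_eq_zero_iff (R := k) (A := K) (M := ρ.V) w).1 h0)
  refine ⟨Submodule.span K {(1 : K) ⊗ₜ[k] w}, fun σ hσ x hx => ?_, ?_, ?_⟩
  · obtain ⟨a, rfl⟩ := Submodule.mem_span_singleton.1 hx
    obtain ⟨c, hc⟩ := hH σ hσ
    have h1 : (ρ.baseChange K).ρ σ ((1 : K) ⊗ₜ[k] w) = (algebraMap k K c) • ((1 : K) ⊗ₜ[k] w) := by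
      show (ρ.ρ σ).baseChange K ((1 : K) ⊗ₜ[k] w) = _
      rw [LinearMap.baseChange_tmul, hc, TensorProduct.tmul_smul, algebraMap_smul]
    rw [map_smul, h1]
    exact Submodule.smul_mem _ _ (Submodule.smul_mem _ _ (Submodule.mem_span_singleton_self _))
  · intro h0
    rw [Submodule.span_singleton_eq_bot] at h0
    exact hw1 h0
  · intro h0
    have h1 : Module.finrank K (Submodule.span K {(1 : K) ⊗ₜ[k] w}) = 1 :=
      finrank_span_singleton hw1
    have h2 : Module.finrank K (⊤ : Submodule K (ρ.baseChange K).V) = 2 := by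
      rw [finrank_top]
      exact (ρ.baseChange K).finrank_eq
    rw [h0] at h1
    have h3 : (1 : ℕ) = 2 := h1.symm.trans h2
    omega

/-- **Irreducibility in matrix form.**
If `v ≠ 0` in `k²` is a common eigenvector of `matRep ρ g`, `g ∈ H`, then `w := ∑ i, v i • bas ρ i ≠ 0` satisfies
`ρ.ρ g w ∈ k w` for `g ∈ H` (`LinearMap.toMatrixAlgEquiv`/`LinearMap.toMatrix_mulVec_repr`), and for every field extension
`K` of `k` the line `K ∙ (1 ⊗ₜ w)` of `K ⊗[k] V` is stable by `H`, `≠ ⊥` (`1 ⊗ₜ w ≠ 0`: faithful flatness / a basis) and `≠ ⊤`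
(`finrank = 2`, `finrank_span_singleton`).  `H = ⊤`: contradiction with `habs` (`K = AlgebraicClosure k`).
`H.index = 2`: contradiction with `hTW` (any `K`, e.g. `K = k`). -/
theorem irr2_matRep (habs : ρ.IsAbsolutelyIrreducible)
    (hTW : ∀ (K : Type) [Field K] [Algebra k K] (G : Subgroup GQ), G.index = 2 →
      ∀ V : Submodule K (ρ.baseChange K).V,
        (∀ σ ∈ G, ∀ x ∈ V, (ρ.baseChange K).ρ σ x ∈ V) → V = ⊥ ∨ V = ⊤) :
    Irr2 (matRep ρ) := by
  intro H hH v hv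
  by_contra hcon
  push Not at hcon
  obtain ⟨w, hw, hwH⟩ := MatIrr_exists_eigen ρ H v hv hcon
  rcases hH with rfl | hidx
  · obtain ⟨V, hst, hbot, htop⟩ := MatIrr_line ρ (AlgebraicClosure k) ⊤ w hw hwH
    rcases habs V (fun σ x hx => hst σ (Subgroup.mem_top σ) x hx) with h | h
    · exact hbot h
    · exact htop h
  · obtain ⟨V, hst, hbot, htop⟩ := MatIrr_line ρ k H w hw hwH
    rcases hTW k H hidx V hst with h | h
    · exact hbot h
    · exact htop h

end Fermat.Agent.S56.T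

end
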