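/-
S56 block (T), leaf `H1`:  `H¹(Γ, ad⁰ ⊗ det) = 0` for an irreducible subgroup `Γ ≤ GL₂(k)`, `k` finite of odd
characteristic `p`, with `det Γ ⊇ 𝔽_p^×`.   NO classification of subgroups (no Dickson, no Cline-Parshall-Scott).
-/
import Fermat.Agent.S56.T.H1.Core
import Fermat.Agent.S56.T.H1.Position
import Fermat.Agent.S56.T.H1.Avg
import Fermat.Agent.S56.T.H1.Conj

set_option autoImplicit false

open Matrix Polynomial

noncomputable section

namespace Fermat.Agent.S56.T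

variable {k : Type*} [Field k]

/-- **Vanishing of `H¹(Γ, ad⁰ ⊗ det)`.**
PROOF (helper74's route).
(0) AVERAGING: if `P ≤ Γ` has index prime to `p` and `c|P` is a coboundary then `c` is a coboundary on `Γ`
  (subtract the coboundary, so `c|P = 0`, `c (g h) = c g` for `h ∈ P`; `n := [Γ:P]⁻¹ ∑_{gP} c g`;
  `act γ n = n - c γ`).
(1) POSITION: `P` a Sylow `p`-subgroup of `Γ`; it fixes a vector `e₁ ≠ 0` (`p`-group acting on `k² \ 0`, of
  cardinality prime to `p`).  If `P = 1` we are done by (0).  Otherwise pick `g₀ ∈ Γ` with `g₀ e₁ ∉ k e₁` (`hirr`),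
  `e₂ := g₀ e₁`.  Statement and hypotheses are invariant under conjugation by `GL₂(k)`, so WLOG
  `P = {uu x : x ∈ A}`, `g₀ P g₀⁻¹ = {vv y : y ∈ A'}`, `A, A' ≠ 0` additive subgroups of `k`.
(R) RIGIDITY: `g ∈ Γ`, `det g = 1`, `(tr g)² ≠ 4` ⇒ `p ∤ ord g =: m`, and `X ↦ tr (X g)` is `g`-invariant, so
  `0 = tr (c (g ^ m) g) = m tr (c g * g)`:   `tr (c g * g) = 0`.
  Applied to `g = uu x * vv y` (`tr = 2 + x y`, so for `x y ∉ {0, -4}`):
     (*)  `tr (c (uu x) * uu x * vv y) + tr (c (vv y) * vv y * uu x) = 0`.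
(N) NORMAL FORMS (cocycle identity on the abelian groups `P`, `g₀ P g₀⁻¹`; subtract ONE global coboundary):
  `c (uu x) = (-c₀ x³/3 + al x) e + (c₀ x²/2) h + c₀ x f`,
  `c (vv y) = c₀' y e - (c₀' y²/2) h + (-c₀' y³/3 + al' y) f`, `al, al'` additive, `c₀ = c₀' = 0` if `p = 3`
  (from `c (u³) = 0`).
  Then (*) reads `c₀ (x³ y/6 + x²) + c₀' (x y³/6 + y²) + al x * y + al' y * x = 0` for `x y ∉ {0,-4}`.
  Replace `x` by `j x`, `j ∈ 𝔽_p^×`, `j x y ≠ -4`: a cubic polynomial in `j` with `≥ p - 2` roots.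
  `p ≥ 7`: it vanishes identically: `c₀ = c₀' = 0`, `al x / x = - al' y / y =: δ`, so `c (uu x) = δ x e` is a
  coboundary.  `p = 3`: `c₀ = c₀' = 0`, linear polynomial, one admissible `j`.
  `p = 5`: if `c₀ = 0` same conclusion.  If `c₀ ≠ 0`, only `3` roots, so `x y ∈ 𝔽₅` for all `x ∈ A`, `y ∈ A'`,
  `A = 𝔽₅ x₀`; the `f`-component of `c (t u t⁻¹) = act t (c u) - (act u' - 1) (c t)` for
  `t = (a *; 0 d) ∈ N_Γ(P)` gives `c₀ (a/d) = d² c₀`, so `a = d³`, `r = a/d = d² ∈ 𝔽₅^×` (as `r A = A`),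
  `det t = r² ∈ {1,-1}`; but `det (N_Γ(P)) = det Γ ∋ 2` (Frattini, `Sylow.normalizer_sup_eq_top` with the normal
  subgroup `Γ ∩ SL₂`).  Contradiction. -/
theorem H1_vanish [Finite k] {p : ℕ} [Fact p.Prime] [CharP k p] (hp2 : p ≠ 2)
    (Γ : Subgroup (GL (Fin 2) k))
    (hirr : ∀ v : Fin 2 → k, v ≠ 0 → ∃ g ∈ Γ, ∀ c : k, (g : M2 k) *ᵥ v ≠ c • v)
    (hdet : ∀ j : ℕ, ¬ p ∣ j → ∃ g ∈ Γ, ((Matrix.GeneralLinearGroup.det g : kˣ) : k) = j)
    (c : GL (Fin 2) k → M2 k) (hc : IsCoc Γ c) : IsCob Γ c := by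
  by_cases hp : p ∣ Nat.card Γ
  · obtain ⟨s, hidx, hy, ht⟩ := position Γ hirr hp
    apply IsCob.of_conj s
    have hc' := hc.conj s
    refine IsCob.of_relIndex (p := p) (upU (conjSub s Γ)) (conjSub s Γ) (upU_le _) hidx _ hc' ?_
    refine core hp2 (conjSub s Γ) _ hc' hy ?_
    intro h5
    obtain ⟨g, hg, hgd⟩ := hdet 2 (by rw [h5]; norm_num)
    obtain ⟨t, htΓ, ht0, htd⟩ := ht g hg
    refine ⟨t, htΓ, ht0, ?_⟩
    rw [htd, ← Matrix.GeneralLinearGroup.val_det_apply, hgd]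
    norm_num
  · refine IsCob.of_relIndex (p := p) ⊥ Γ bot_le ?_ c hc ?_
    · rwa [Subgroup.relIndex_bot_left]
    · refine ⟨0, by simp, ?_⟩
      intro g hg
      rw [Subgroup.mem_bot] at hg
      rw [hg, hc.map_one]
      simp

end Fermat.Agent.S56.T

end
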