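/-
S56 block (T), leaf `Plane`: `ad⁰ ⊗ det` is an irreducible `G`-module.
-/
import Fermat.Agent.S56.T.Line

set_option autoImplicit false

open Matrix Polynomial

noncomputable section

namespace Fermat.Agent.S56.T

variable {k : Type*} [Field k] {G : Type*} [Group G]

/-- the trace zero part of the commutant of a nonzero trace zero matrix is a line. -/
theorem Plane_commutant (h2 : (2 : k) ≠ 0) {X Z : M2 k} (hX0 : X ≠ 0) (hX : X.trace = 0)
    (hZ : Z.trace = 0) (hc : X * Z = Z * X) : ∃ t : k, Z = t • X := by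
  have hX11 : X 1 1 = - X 0 0 := by
    rw [Matrix.trace_fin_two] at hX
    linear_combination hX
  have hZ11 : Z 1 1 = - Z 0 0 := by
    rw [Matrix.trace_fin_two] at hZ
    linear_combination hZ
  have e00 := congrFun (congrFun hc 0) 0
  have e01 := congrFun (congrFun hc 0) 1
  have e10 := congrFun (congrFun hc 1) 0
  simp only [Matrix.mul_apply, Fin.sum_univ_two, hX11, hZ11] at e00 e01 e10
  have f1 : X 0 1 * Z 1 0 = Z 0 1 * X 1 0 := by linear_combination e00
  have f2 : X 0 0 * Z 0 1 = Z 0 0 * X 0 1 := by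
    have : (2 : k) * (X 0 0 * Z 0 1 - Z 0 0 * X 0 1) = 0 := by linear_combination e01
    exact sub_eq_zero.mp ((mul_eq_zero.mp this).resolve_left h2)
  have f3 : X 1 0 * Z 0 0 = Z 1 0 * X 0 0 := by
    have : (2 : k) * (X 1 0 * Z 0 0 - Z 1 0 * X 0 0) = 0 := by linear_combination e10
    exact sub_eq_zero.mp ((mul_eq_zero.mp this).resolve_left h2)
  by_cases h00 : X 0 0 = 0
  · by_cases h01 : X 0 1 = 0
    · have h10 : X 1 0 ≠ 0 := by
        intro h10
        apply hX0
        ext i j
        fin_cases i <;> fin_cases j <;> simp [h00, h01, h10, hX11]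
      refine ⟨Z 1 0 / X 1 0, ?_⟩
      ext i j
      fin_cases i <;> fin_cases j <;>
        simp only [Fin.zero_eta, Fin.mk_one, Matrix.smul_apply, smul_eq_mul, hX11, hZ11] <;>
        field_simp
      · linear_combination f3
      · linear_combination -f1
      · linear_combination -f3
    · refine ⟨Z 0 1 / X 0 1, ?_⟩
      ext i j
      fin_cases i <;> fin_cases j <;>
        simp only [Fin.zero_eta, Fin.mk_one, Matrix.smul_apply, smul_eq_mul, hX11, hZ11] <;>
        field_simp
      · linear_combination -f2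
      · linear_combination f1
      · linear_combination f2
  · refine ⟨Z 0 0 / X 0 0, ?_⟩
    ext i j
    fin_cases i <;> fin_cases j <;>
      simp only [Fin.zero_eta, Fin.mk_one, Matrix.smul_apply, smul_eq_mul, hX11, hZ11] <;>
      field_simp
    · linear_combination f2
    · linear_combination -f3

/-- the trace zero matrices have dimension `3`. -/
theorem Plane_finrank_ker_trace :
    Module.finrank k (LinearMap.ker (Matrix.traceLinearMap (Fin 2) k k)) = 3 := by
  have h1 := LinearMap.finrank_range_add_finrank_ker (Matrix.traceLinearMap (Fin 2) k k)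
  have hsurj : Function.Surjective (Matrix.traceLinearMap (Fin 2) k k) := by
    intro c
    refine ⟨!![c, 0; 0, 0], ?_⟩
    simp [Matrix.trace_fin_two]
  rw [LinearMap.range_eq_top.mpr hsurj, finrank_top, Module.finrank_self,
    Module.finrank_matrix] at h1
  simp at h1
  omega

/-- compatibility of `act` with products. -/
theorem Plane_act_mul_act (g : GL (Fin 2) k) (X Y : M2 k) :
    act g X * act g Y = ((Matrix.GeneralLinearGroup.det g : kˣ) : k) • act g (X * Y) := by
  have h : ((g⁻¹ : GL (Fin 2) k) : M2 k) * (g : M2 k) = 1 := by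
    rw [← Units.val_mul, inv_mul_cancel, Units.val_one]
  unfold act
  rw [Matrix.smul_mul, Matrix.mul_smul]
  congr 2
  calc (g : M2 k) * X * ((g⁻¹ : GL (Fin 2) k) : M2 k) * ((g : M2 k) * Y * ((g⁻¹ : GL (Fin 2) k) : M2 k))
      = (g : M2 k) * X * (((g⁻¹ : GL (Fin 2) k) : M2 k) * (g : M2 k)) * Y *
          ((g⁻¹ : GL (Fin 2) k) : M2 k) := by
        simp only [Matrix.mul_assoc]
    _ = (g : M2 k) * (X * Y) * ((g⁻¹ : GL (Fin 2) k) : M2 k) := by
        rw [h, Matrix.mul_one]
        simp only [Matrix.mul_assoc]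

/-- **Irreducibility of `ad⁰ ⊗ det`.**  A nonzero stable subspace of the trace zero matrices is everything.
PROOF.  The trace zero matrices have dimension `3`.
* If all `X₁ X₂ ∈ W` commute then `W` is a line `k X₁` (`X₁ ≠ 0`; the commutant of `X₁` is `k + k X₁`, trace zero
  part `k X₁`): stable line, `no_stable_line`.
* Otherwise `X₁ X₂ ∈ W` with `Y := X₁ X₂ - X₂ X₁ ≠ 0`, in particular linearly independent.  If `W ≠` everything then
  `W = span {X₁, X₂}` (dimension), and for `act (r g) Xᵢ = ∑ aᵢⱼ Xⱼ`: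
  `[act g X₁, act g X₂] = det (a) • Y` and `[act g X₁, act g X₂] = det g • act g Y`; so `k Y` is a stable line
  (`tr Y = 0`): `no_stable_line`.
(Alternative: orthogonal complement for the nondegenerate form `tr (X Y)` on the trace zero matrices.) -/
theorem eq_top_of_stable (h2 : (2 : k) ≠ 0) (r : G →* GL (Fin 2) k)
    (hsplit : ∀ g, Split ((r g : GL (Fin 2) k) : M2 k)) (hirr : Irr2 r)
    (W : Submodule k (M2 k)) (hW0 : W ≠ ⊥) (hWtr : ∀ X ∈ W, X.trace = 0)
    (hst : ∀ g, ∀ X ∈ W, act (r g) X ∈ W) : ∀ X : M2 k, X.trace = 0 → X ∈ W := by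
  by_contra hcon
  push Not at hcon
  obtain ⟨X₀, hX₀tr, hX₀W⟩ := hcon
  by_cases hcomm : ∀ X₁ ∈ W, ∀ X₂ ∈ W, X₁ * X₂ = X₂ * X₁
  · obtain ⟨X₁, hX₁, hX₁0⟩ := Submodule.exists_mem_ne_zero_of_ne_bot hW0
    exact no_stable_line h2 r hsplit hirr hX₁0 (hWtr X₁ hX₁) fun g =>
      Plane_commutant h2 hX₁0 (hWtr X₁ hX₁) (hWtr _ (hst g X₁ hX₁)) (hcomm X₁ hX₁ _ (hst g X₁ hX₁))
  · push Not at hcomm
    obtain ⟨X₁, hX₁, X₂, hX₂, hne⟩ := hcomm
    have hY0 : X₁ * X₂ - X₂ * X₁ ≠ 0 := sub_ne_zero.mpr hne
    have hYtr : (X₁ * X₂ - X₂ * X₁).trace = 0 := by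
      rw [Matrix.trace_sub, Matrix.trace_mul_comm, sub_self]
    -- linear independence
    have hli : LinearIndependent k ![X₁, X₂] := by
      rw [LinearIndependent.pair_iff]
      intro s t hst'
      by_contra hcon
      apply hne
      by_cases hs : s = 0
      · have ht : t ≠ 0 := fun ht => hcon ⟨hs, ht⟩
        rw [hs, zero_smul, zero_add] at hst'
        rw [(smul_eq_zero.mp hst').resolve_left ht, Matrix.mul_zero, Matrix.zero_mul]
      · have h1 : X₁ = (-(t / s)) • X₂ := by
          have h3 : s • X₁ = -(t • X₂) := eq_neg_of_add_eq_zero_left hst'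
          have h4 : X₁ = s⁻¹ • (s • X₁) := by rw [smul_smul, inv_mul_cancel₀ hs, one_smul]
          rw [h4, h3, smul_neg, smul_smul, neg_smul, div_eq_inv_mul]
        rw [h1, Matrix.smul_mul, Matrix.mul_smul]
    -- dimension count
    have hWT : W ≤ LinearMap.ker (Matrix.traceLinearMap (Fin 2) k k) := fun X hX => by
      rw [LinearMap.mem_ker]
      exact hWtr X hX
    have hlt : W < LinearMap.ker (Matrix.traceLinearMap (Fin 2) k k) := by
      refine lt_of_le_of_ne hWT fun h => hX₀W ?_
      rw [h, LinearMap.mem_ker]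
      exact hX₀tr
    have hW3 : Module.finrank k W < 3 := by
      have := Submodule.finrank_lt_finrank_of_lt hlt
      rwa [Plane_finrank_ker_trace] at this
    have hspan : Submodule.span k (Set.range ![X₁, X₂]) ≤ W := by
      rw [Submodule.span_le]
      rintro _ ⟨i, rfl⟩
      fin_cases i
      · exact hX₁
      · exact hX₂
    have hs2 : Module.finrank k (Submodule.span k (Set.range ![X₁, X₂])) = 2 := by
      rw [finrank_span_eq_card hli, Fintype.card_fin]
    have hWeq : Submodule.span k (Set.range ![X₁, X₂]) = W := by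
      refine Submodule.eq_of_le_of_finrank_le hspan ?_
      rw [hs2]
      omega
    have hpair : ∀ Z ∈ W, ∃ a b : k, a • X₁ + b • X₂ = Z := by
      intro Z hZ
      rw [← hWeq, Matrix.range_cons, Matrix.range_cons, Matrix.range_empty, Set.union_empty,
        Set.singleton_union, Submodule.mem_span_pair] at hZ
      exact hZ
    refine no_stable_line h2 r hsplit hirr hY0 hYtr fun g => ?_
    obtain ⟨a, b, hab⟩ := hpair _ (hst g X₁ hX₁)
    obtain ⟨c, d, hcd⟩ := hpair _ (hst g X₂ hX₂)
    have hd : ((Matrix.GeneralLinearGroup.det (r g) : kˣ) : k) ≠ 0 := Units.ne_zero _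
    have h1 : ((Matrix.GeneralLinearGroup.det (r g) : kˣ) : k) • act (r g) (X₁ * X₂ - X₂ * X₁) =
        (a * d - b * c) • (X₁ * X₂ - X₂ * X₁) := by
      rw [act_sub, smul_sub, ← Plane_act_mul_act, ← Plane_act_mul_act, ← hab, ← hcd]
      simp only [Matrix.add_mul, Matrix.mul_add, Matrix.smul_mul, Matrix.mul_smul, smul_smul,
        sub_smul, smul_sub, smul_add]
      have e1 : (a * d) • (X₁ * X₂) = (d * a) • (X₁ * X₂) := by rw [mul_comm]
      have e2 : (b * c) • (X₂ * X₁) = (c * b) • (X₂ * X₁) := by rw [mul_comm]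
      have e3 : (a * c) • (X₁ * X₁) = (c * a) • (X₁ * X₁) := by rw [mul_comm]
      have e4 : (b * d) • (X₂ * X₂) = (d * b) • (X₂ * X₂) := by rw [mul_comm]
      have e5 : (a * d) • (X₂ * X₁) = (d * a) • (X₂ * X₁) := by rw [mul_comm]
      have e6 : (b * c) • (X₁ * X₂) = (c * b) • (X₁ * X₂) := by rw [mul_comm]
      rw [e1, e2, e3, e4, e5, e6]
      abel
    refine ⟨(a * d - b * c) / ((Matrix.GeneralLinearGroup.det (r g) : kˣ) : k), ?_⟩
    rw [div_eq_inv_mul, mul_smul, ← h1, smul_smul, inv_mul_cancel₀ hd, one_smul]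

end Fermat.Agent.S56.T

end
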