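/-
S56 block (T), leaf `Reg`: the kernel of a character with cyclic image (`G_{ℚ(ζ_{p^n})}`) contains an element with two
distinct eigenvalues.
-/
import Fermat.Agent.S56.T.RegBasic
import Fermat.Agent.S56.T.Line

set_option autoImplicit false

open Matrix Polynomial

noncomputable section

namespace Fermat.Agent.S56.T

variable {k : Type*} [Field k] {G : Type*} [Group G]

theorem Reg.aux_trace_det {m : M2 k} {α β : k} (h : m.charpoly = (X - C α) * (X - C β)) :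
    m.trace = α + β ∧ m.det = α * β := by
  rw [Matrix.charpoly_fin_two] at h
  have h0 := congrArg (Polynomial.eval 0) h
  have h1 := congrArg (Polynomial.eval 1) h
  simp only [eval_add, eval_sub, eval_mul, eval_pow, eval_X, eval_C] at h0 h1
  have hdet : m.det = α * β := by linear_combination h0
  exact ⟨by linear_combination hdet - h1, hdet⟩

/-- two nilpotent trace zero matrices with `tr (N₀ N₁) = 0` have product zero -/
theorem Reg.aux_nil {N₀ N₁ : M2 k} (ht0 : N₀.trace = 0) (ht1 : N₁.trace = 0) (h0 : N₀ * N₀ = 0)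
    (h1 : N₁ * N₁ = 0) (h : (N₀ * N₁).trace = 0) : N₀ * N₁ = 0 := by
  have e0 : N₀ 1 1 = - N₀ 0 0 := by
    rw [Matrix.trace_fin_two] at ht0; linear_combination ht0
  have e1 : N₁ 1 1 = - N₁ 0 0 := by
    rw [Matrix.trace_fin_two] at ht1; linear_combination ht1
  have q0 : N₀ 0 0 * N₀ 0 0 + N₀ 0 1 * N₀ 1 0 = 0 := by
    have := congrFun (congrFun h0 0) 0
    simpa [Matrix.mul_apply, Fin.sum_univ_two] using this
  have q1 : N₁ 0 0 * N₁ 0 0 + N₁ 0 1 * N₁ 1 0 = 0 := by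
    have := congrFun (congrFun h1 0) 0
    simpa [Matrix.mul_apply, Fin.sum_univ_two] using this
  have q : 2 * (N₀ 0 0 * N₁ 0 0) + N₀ 0 1 * N₁ 1 0 + N₀ 1 0 * N₁ 0 1 = 0 := by
    rw [Matrix.trace_fin_two] at h
    simp only [Matrix.mul_apply, Fin.sum_univ_two, e0, e1] at h
    linear_combination h
  ext i j
  fin_cases i <;> fin_cases j <;>
    simp only [Fin.zero_eta, Fin.mk_one, Matrix.mul_apply, Fin.sum_univ_two, Matrix.zero_apply, e0, e1]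
  · have : (N₀ 0 0 * N₁ 0 0 + N₀ 0 1 * N₁ 1 0) ^ 2 = 0 := by
      linear_combination (N₀ 0 1 * N₁ 1 0) * q - (N₀ 0 1 * N₀ 1 0) * q1 + (N₁ 0 0 * N₁ 0 0) * q0
    exact pow_eq_zero_iff (two_ne_zero) |>.mp this
  · have : (N₀ 0 0 * N₁ 0 1 + N₀ 0 1 * -N₁ 0 0) ^ 2 = 0 := by
      linear_combination (-(N₀ 0 1 * N₁ 0 1)) * q + (N₁ 0 1 * N₁ 0 1) * q0 + (N₀ 0 1 * N₀ 0 1) * q1
    exact pow_eq_zero_iff (two_ne_zero) |>.mp this
  · have : (N₀ 1 0 * N₁ 0 0 + -N₀ 0 0 * N₁ 1 0) ^ 2 = 0 := by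
      linear_combination (-(N₀ 1 0 * N₁ 1 0)) * q + (N₁ 1 0 * N₁ 1 0) * q0 + (N₀ 1 0 * N₀ 1 0) * q1
    exact pow_eq_zero_iff (two_ne_zero) |>.mp this
  · have : (N₀ 1 0 * N₁ 0 1 + -N₀ 0 0 * -N₁ 0 0) ^ 2 = 0 := by
      linear_combination (N₀ 1 0 * N₁ 0 1) * q - (N₀ 0 1 * N₀ 1 0) * q1 + (N₁ 0 0 * N₁ 0 0) * q0
    exact pow_eq_zero_iff (two_ne_zero) |>.mp this

/-- the stabiliser of the line `k v` -/
def Reg.lineStab (r : G →* GL (Fin 2) k) (v : Fin 2 → k) (hv : v ≠ 0) : Subgroup G where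
  carrier := {g | ∃ t : k, ((r g : GL (Fin 2) k) : M2 k) *ᵥ v = t • v}
  mul_mem' := by
    rintro a b ⟨s, hs⟩ ⟨t, ht⟩
    refine ⟨t * s, ?_⟩
    rw [map_mul, Units.val_mul, ← Matrix.mulVec_mulVec, ht, Matrix.mulVec_smul, hs, smul_smul]
  one_mem' := ⟨1, by simp⟩
  inv_mem' := by
    rintro a ⟨s, hs⟩
    have hinvL : (((r a)⁻¹ : GL (Fin 2) k) : M2 k) * ((r a : GL (Fin 2) k) : M2 k) = 1 := by
      rw [← Units.val_mul, inv_mul_cancel, Units.val_one]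
    have h3 := congrArg ((((r a)⁻¹ : GL (Fin 2) k) : M2 k) *ᵥ ·) hs
    simp only [Matrix.mulVec_mulVec, hinvL, Matrix.one_mulVec, Matrix.mulVec_smul] at h3
    have hs0 : s ≠ 0 := by
      rintro rfl
      rw [zero_smul] at h3
      exact hv h3
    refine ⟨s⁻¹, ?_⟩
    rw [map_inv, eq_comm, inv_smul_eq_iff₀ hs0]
    exact h3

/-- **Existence of a regular element in `ker χ`.**
PROOF.  Suppose no `r σ`, `σ ∈ ker χ =: H`, is regular.  By `exists_sub_sq_eq_zero` and `det = 1`: `r σ = ε (1 + N)`,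
`ε = ± 1`, `N² = 0`, trace `± 2`.
* Case A: all `r σ` (`σ ∈ H`) are scalar.  `χ.range` is cyclic (subgroup of a cyclic group), generated by `χ g₀`; every
  `g` is `g₀ ^ i * σ`, `i : ℤ`, `σ ∈ H`.  `r g₀` has an eigenvector `v ≠ 0` in `k²` (`hsplit`:
  `(r g₀ - α)(r g₀ - β) = 0`), which is an eigenvector of all `r g`: contradiction with `hirr ⊤`.
* Case B: `σ₀ ∈ H`, `r σ₀ = ε₀ (1 + N₀)`, `N₀ ≠ 0`.  `ℓ := ker N₀ = k v₀` is the only eigenline of `r σ₀`.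
  For `σ₁ ∈ H`, `r σ₁ = ε₁ (1 + N₁)`: `tr ((1 + N₀)(1 + N₁)) = 2 + tr (N₀ N₁) ∈ {2, -2}` and
  `tr ((1 + N₀)² (1 + N₁)) = 2 + 2 tr (N₀ N₁) ∈ {2, -2}`, so `t := tr (N₀ N₁) ∈ {0,-4}` and `2 t ∈ {0,-4}`: `t = 0` (`2 ≠ 0`).
  Two nilpotent `2 × 2` matrices with `tr (N₀ N₁) = 0`, `N₀ ≠ 0`: `N₁ ∈ k N₀` (write `N₀ = v₀ φ₀`; or coordinates).  So every
  element of `r H` preserves `ℓ`.  `H` is normal: for `g : G`, `g σ₀ g⁻¹ ∈ H` preserves `ℓ` and its only eigenline is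
  `r g ℓ`; so `r g ℓ = ℓ` for all `g`: contradiction with `hirr ⊤`. -/
theorem exists_reg (h2 : (2 : k) ≠ 0) {C : Type*} [CommGroup C] [IsCyclic C] (χ : G →* C)
    (r : G →* GL (Fin 2) k) (hsplit : ∀ g, Split ((r g : GL (Fin 2) k) : M2 k)) (hirr : Irr2 r)
    (hdet : ∀ g ∈ χ.ker, Matrix.GeneralLinearGroup.det (r g) = 1) :
    ∃ σ ∈ χ.ker, Reg ((r σ : GL (Fin 2) k) : M2 k) := by
  classical
  by_contra hcon
  push Not at hcon
  have hstr : ∀ σ ∈ χ.ker, ∃ α : k, α * α = 1 ∧ ((r σ : GL (Fin 2) k) : M2 k).trace = 2 * α ∧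
      (((r σ : GL (Fin 2) k) : M2 k) - α • (1 : M2 k)) *
        (((r σ : GL (Fin 2) k) : M2 k) - α • (1 : M2 k)) = 0 := by
    intro σ hσ
    obtain ⟨α, hcp, hsq⟩ := exists_sub_sq_eq_zero (hsplit σ) (hcon σ hσ)
    obtain ⟨ht, hd⟩ := Reg.aux_trace_det hcp
    refine ⟨α, ?_, by rw [ht]; ring, hsq⟩
    have h3 : (((r σ : GL (Fin 2) k) : M2 k)).det = 1 := by
      have h4 := congrArg Units.val (hdet σ hσ)
      simpa using h4
    rw [← hd, h3]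
  have htr4 : ∀ σ ∈ χ.ker, ((r σ : GL (Fin 2) k) : M2 k).trace ^ 2 = 4 := by
    intro σ hσ
    obtain ⟨α, hα, ht, -⟩ := hstr σ hσ
    rw [ht]
    linear_combination 4 * hα
  suffices hline : ∃ v : Fin 2 → k, v ≠ 0 ∧
      ∀ g, ∃ t : k, ((r g : GL (Fin 2) k) : M2 k) *ᵥ v = t • v by
    obtain ⟨v, hv, h⟩ := hline
    obtain ⟨g, -, hg⟩ := hirr ⊤ (Or.inl rfl) v hv
    obtain ⟨t, ht⟩ := h g
    exact hg t ht
  by_cases hA : ∀ σ ∈ χ.ker, ∃ s : k, ((r σ : GL (Fin 2) k) : M2 k) = s • (1 : M2 k)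
  · -- case A
    obtain ⟨⟨c₀, ⟨g₀, rfl⟩⟩, hgen⟩ := (inferInstance : IsCyclic χ.range).exists_generator
    -- an eigenvector of `r g₀`
    obtain ⟨v, hv, t₀, ht₀⟩ : ∃ v : Fin 2 → k, v ≠ 0 ∧
        ∃ t : k, ((r g₀ : GL (Fin 2) k) : M2 k) *ᵥ v = t • v := by
      obtain ⟨α, β, hαβ⟩ := hsplit g₀
      have hCH : (((r g₀ : GL (Fin 2) k) : M2 k) - α • (1 : M2 k)) *
          (((r g₀ : GL (Fin 2) k) : M2 k) - β • (1 : M2 k)) = 0 := by
        have h3 := Matrix.aeval_self_charpoly ((r g₀ : GL (Fin 2) k) : M2 k)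
        rw [hαβ] at h3
        simpa [Algebra.algebraMap_eq_smul_one] using h3
      by_cases hβ : ((r g₀ : GL (Fin 2) k) : M2 k) - β • (1 : M2 k) = 0
      · refine ⟨![1, 0], by simp, β, ?_⟩
        rw [sub_eq_zero.mp hβ, Matrix.smul_mulVec, Matrix.one_mulVec]
      · obtain ⟨w, hw⟩ := Line.exists_mulVec_ne_zero hβ
        refine ⟨_, hw, α, ?_⟩
        have h3 : (((r g₀ : GL (Fin 2) k) : M2 k) - α • (1 : M2 k)) *ᵥ
            ((((r g₀ : GL (Fin 2) k) : M2 k) - β • (1 : M2 k)) *ᵥ w) = 0 := by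
          rw [Matrix.mulVec_mulVec, hCH, Matrix.zero_mulVec]
        rw [Matrix.sub_mulVec, Matrix.smul_mulVec, Matrix.one_mulVec, sub_eq_zero] at h3
        exact h3
    refine ⟨v, hv, fun g => ?_⟩
    have hg₀ : g₀ ∈ Reg.lineStab r v hv := ⟨t₀, ht₀⟩
    obtain ⟨i, hi⟩ := Subgroup.mem_zpowers_iff.mp (hgen ⟨χ g, ⟨g, rfl⟩⟩)
    have hi' : χ g₀ ^ i = χ g := by
      have := congrArg Subtype.val hi
      simpa using this
    have hσ : (g₀ ^ i)⁻¹ * g ∈ χ.ker := by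
      rw [MonoidHom.mem_ker, map_mul, map_inv, map_zpow, hi', inv_mul_cancel]
    have hσ' : (g₀ ^ i)⁻¹ * g ∈ Reg.lineStab r v hv := by
      obtain ⟨s, hs⟩ := hA _ hσ
      exact ⟨s, by rw [hs, Matrix.smul_mulVec, Matrix.one_mulVec]⟩
    have hg : g ∈ Reg.lineStab r v hv := by
      have h3 : g = g₀ ^ i * ((g₀ ^ i)⁻¹ * g) := by group
      rw [h3]
      exact mul_mem (zpow_mem hg₀ i) hσ'
    exact hg
  · -- case B
    push Not at hA
    obtain ⟨σ₀, hσ₀, hns⟩ := hA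
    obtain ⟨α, hα, htα, hsq⟩ := hstr σ₀ hσ₀
    obtain ⟨N₀, hN₀⟩ : ∃ N₀ : M2 k, N₀ = ((r σ₀ : GL (Fin 2) k) : M2 k) - α • (1 : M2 k) := ⟨_, rfl⟩
    rw [← hN₀] at hsq
    have hm₀ : ((r σ₀ : GL (Fin 2) k) : M2 k) = α • (1 : M2 k) + N₀ := by rw [hN₀]; abel
    have hN₀ne : N₀ ≠ 0 := by
      intro h
      rw [h, add_zero] at hm₀
      exact hns α hm₀
    have htN₀ : N₀.trace = 0 := by
      rw [hN₀, Matrix.trace_sub, htα, Matrix.trace_smul, Matrix.trace_one]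
      simp
      ring
    obtain ⟨w, hw⟩ := Line.exists_mulVec_ne_zero hN₀ne
    have hN₀v : N₀ *ᵥ (N₀ *ᵥ w) = 0 := by
      rw [Matrix.mulVec_mulVec, hsq, Matrix.zero_mulVec]
    refine ⟨N₀ *ᵥ w, hw, fun g => ?_⟩
    have hinvL : (((r g)⁻¹ : GL (Fin 2) k) : M2 k) * ((r g : GL (Fin 2) k) : M2 k) = 1 := by
      rw [← Units.val_mul, inv_mul_cancel, Units.val_one]
    have hinvR : ((r g : GL (Fin 2) k) : M2 k) * (((r g)⁻¹ : GL (Fin 2) k) : M2 k) = 1 := by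
      rw [← Units.val_mul, mul_inv_cancel, Units.val_one]
    obtain ⟨N₁, hN₁⟩ : ∃ N₁ : M2 k, N₁ = ((r g : GL (Fin 2) k) : M2 k) * N₀ *
        (((r g)⁻¹ : GL (Fin 2) k) : M2 k) := ⟨_, rfl⟩
    have hσ₁ : g * σ₀ * g⁻¹ ∈ χ.ker := χ.normal_ker.conj_mem σ₀ hσ₀ g
    have hm₁ : ((r (g * σ₀ * g⁻¹) : GL (Fin 2) k) : M2 k) = α • (1 : M2 k) + N₁ := by
      rw [map_mul, map_mul, map_inv, Units.val_mul, Units.val_mul, hm₀, hN₁, Matrix.mul_add,
        Matrix.add_mul, Matrix.mul_smul, Matrix.mul_one, Matrix.smul_mul, hinvR]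
    have htN₁ : N₁.trace = 0 := by
      rw [hN₁, Matrix.trace_mul_comm, ← Matrix.mul_assoc, hinvL, Matrix.one_mul, htN₀]
    have hsq₁ : N₁ * N₁ = 0 := by
      have h3 : N₁ * N₁ = ((r g : GL (Fin 2) k) : M2 k) * (N₀ * ((((r g)⁻¹ : GL (Fin 2) k) : M2 k) *
          ((r g : GL (Fin 2) k) : M2 k)) * N₀) * (((r g)⁻¹ : GL (Fin 2) k) : M2 k) := by
        rw [hN₁]
        simp only [Matrix.mul_assoc]
      rw [h3, hinvL, Matrix.mul_one, hsq, Matrix.mul_zero, Matrix.zero_mul]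
    have e1 : ((r (σ₀ * (g * σ₀ * g⁻¹)) : GL (Fin 2) k) : M2 k).trace = 2 + (N₀ * N₁).trace := by
      rw [map_mul, Units.val_mul, hm₀, hm₁]
      simp only [Matrix.add_mul, Matrix.mul_add, Matrix.smul_mul, Matrix.mul_smul, Matrix.one_mul,
        Matrix.mul_one, Matrix.trace_add, Matrix.trace_smul, htN₀, htN₁, Matrix.trace_one]
      simp
      linear_combination 2 * hα
    have e2 : ((r (σ₀ * (σ₀ * (g * σ₀ * g⁻¹))) : GL (Fin 2) k) : M2 k).trace =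
        2 * α * (1 + (N₀ * N₁).trace) := by
      rw [map_mul, map_mul, Units.val_mul, Units.val_mul, hm₀, hm₁]
      have h3 : (α • (1 : M2 k) + N₀) * ((α • (1 : M2 k) + N₀) * (α • (1 : M2 k) + N₁)) =
          (α * α * α) • (1 : M2 k) + (α * α) • N₁ + (2 * (α * α)) • N₀ + (2 * α) • (N₀ * N₁)
            + α • (N₀ * N₀) + (N₀ * N₀) * N₁ := by
        simp only [Matrix.add_mul, Matrix.mul_add, Matrix.smul_mul, Matrix.mul_smul, Matrix.one_mul,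
          Matrix.mul_one, smul_add, smul_smul, Matrix.mul_assoc]
        module
      rw [h3, hsq]
      simp only [Matrix.trace_add, Matrix.trace_smul, htN₀, htN₁, Matrix.trace_one, Matrix.zero_mul,
        smul_zero, Matrix.trace_zero]
      simp
      linear_combination (2 * α) * hα
    have f1 := htr4 _ (mul_mem hσ₀ hσ₁)
    have f2 := htr4 _ (mul_mem hσ₀ (mul_mem hσ₀ hσ₁))
    rw [e1] at f1
    rw [e2] at f2
    have ht0 : (N₀ * N₁).trace = 0 := by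
      have h4 : (4 : k) ≠ 0 := by
        have : (4 : k) = 2 * 2 := by norm_num
        rw [this]
        exact mul_ne_zero h2 h2
      have h5 : (2 * 4 : k) * (N₀ * N₁).trace = 0 := by
        linear_combination 4 * f1 - f2 + (4 * (1 + (N₀ * N₁).trace) ^ 2) * hα
      exact (mul_eq_zero.mp h5).resolve_left (mul_ne_zero h2 h4)
    have hprod := Reg.aux_nil htN₀ htN₁ hsq hsq₁ ht0
    have h6 : N₀ * ((r g : GL (Fin 2) k) : M2 k) * N₀ = 0 := by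
      have h7 := congrArg (· * ((r g : GL (Fin 2) k) : M2 k)) hprod
      simp only [hN₁, Matrix.mul_assoc, hinvL, Matrix.mul_one, Matrix.zero_mul] at h7
      rw [Matrix.mul_assoc]
      exact h7
    have h8 : N₀ *ᵥ (((r g : GL (Fin 2) k) : M2 k) *ᵥ (N₀ *ᵥ w)) = 0 := by
      rw [Matrix.mulVec_mulVec, Matrix.mulVec_mulVec, h6, Matrix.zero_mulVec]
    exact Line.ker_line hN₀ne hw hN₀v h8

end Fermat.Agent.S56.T

end
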