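/-
S56 block (T), leaf `Sigma`: the abstract choice of the Taylor-Wiles element `σ`.
-/
import Fermat.Agent.S56.T.H1
import Fermat.Agent.S56.T.Plane
import Fermat.Agent.S56.T.Reg

set_option autoImplicit false

open Matrix Polynomial

noncomputable section

namespace Fermat.Agent.S56.T

variable {k : Type*} [Field k] {G : Type*} [Group G]

/-- **The Taylor-Wiles element.**  `χ` = cyclotomic character mod `p ^ (n+1)`, `r` = matrix form of `ρbar`.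
A cocycle `ψ` with values in `ad⁰ ⊗ det` which is not a coboundary is detected by an element `σ ∈ ker χ` with two distinct
eigenvalues: `tr (ψ σ * r σ) ≠ 0` (so `ψ σ ∉ (σ - 1) N`, see `trace_act_sub_mul`).
PROOF.  `E' := r.ker`, `E := r.ker ⊓ χ.ker` (normal subgroups).  `ψ 1 = 0`; `act (r τ) = id` for `τ ∈ E'`.
(1) `ψ (τ τ') = ψ τ + ψ τ'` for `τ ∈ E'`;  `ψ (g τ g⁻¹) = act (r g) (ψ τ)` for `τ ∈ E'`, `g : G`
    (`ψ (g τ g⁻¹) = ψ g + act g (ψ τ) + act g (ψ g⁻¹)`, `0 = ψ (g g⁻¹) = ψ g + act g (ψ g⁻¹)`).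
(2) `∃ τ ∈ E, ψ τ ≠ 0`.  Otherwise, for `τ ∈ E'`, `g : G`: `g τ g⁻¹ τ⁻¹ ∈ E` (`C` commutative), so
    `act (r g) (ψ τ) = ψ (g τ g⁻¹) = ψ (g τ g⁻¹ τ⁻¹) + ψ τ = ψ τ`; `eq_zero_of_invariant`: `ψ τ = 0`.  So `ψ (g τ) = ψ g` for
    `τ ∈ E'`, `ψ g` depends only on `r g`; `c γ := ψ (a preimage of γ)` on `Γ := r.range` (`0` outside) is `IsCoc Γ c`;
    `H1_vanish` (`hirr` from `hirr ⊤`) gives `IsCob Γ c`, i.e. `IsCobG r ψ`: contradiction.
(3) `W := Submodule.span k {ψ τ | τ ∈ E}` is nonzero, consists of trace zero matrices and is stable by (1);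
    `eq_top_of_stable`: it contains all trace zero matrices.
(4) `σ₀ ∈ ker χ` regular (`exists_reg`), `Y` with `tr Y = 0`, `tr (Y * r σ₀) ≠ 0` (`Reg.exists_trace_mul_ne_zero`); as `Y ∈ W`, the
    linear form `X ↦ tr (X * r σ₀)` does not vanish on all the generators: `τ ∈ E` with `tr (ψ τ * r σ₀) ≠ 0`.
(5) If `tr (ψ σ₀ * r σ₀) ≠ 0` take `σ := σ₀`; otherwise `σ := τ σ₀`: `r σ = r σ₀`, `ψ σ = ψ τ + ψ σ₀`. -/
theorem exists_sigma [Finite k] {p : ℕ} [Fact p.Prime] [CharP k p] (hp2 : p ≠ 2)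
    {C : Type*} [CommGroup C] [IsCyclic C] (χ : G →* C) (r : G →* GL (Fin 2) k)
    (hsplit : ∀ g, Split ((r g : GL (Fin 2) k) : M2 k)) (hirr : Irr2 r)
    (hdetker : ∀ g ∈ χ.ker, Matrix.GeneralLinearGroup.det (r g) = 1)
    (hdet : ∀ j : ℕ, ¬ p ∣ j → ∃ g, ((Matrix.GeneralLinearGroup.det (r g) : kˣ) : k) = j)
    (ψ : G → M2 k) (hψ : IsCocG r ψ) (hnc : ¬ IsCobG r ψ) :
    ∃ σ ∈ χ.ker, Reg ((r σ : GL (Fin 2) k) : M2 k) ∧ (ψ σ * ((r σ : GL (Fin 2) k) : M2 k)).trace ≠ 0 := by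
  classical
  obtain ⟨htr, hcoc⟩ := hψ
  have h2 : (2 : k) ≠ 0 := by
    intro h
    have h' : ((2 : ℕ) : k) = 0 := by exact_mod_cast h
    have hd : p ∣ 2 := (CharP.cast_eq_zero_iff k p 2).mp h'
    exact hp2 ((Nat.prime_dvd_prime_iff_eq Fact.out Nat.prime_two).mp hd)
  have hψ1 : ψ 1 = 0 := by
    have h := hcoc 1 1
    rw [mul_one, map_one, act_one] at h
    exact left_eq_add.mp h
  have hadd : ∀ τ ∈ r.ker, ∀ g, ψ (τ * g) = ψ τ + ψ g := by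
    intro τ hτ g
    rw [hcoc, MonoidHom.mem_ker.mp hτ, act_one]
  have hinv : ∀ g, act (r g) (ψ g⁻¹) = - ψ g := by
    intro g
    have h := hcoc g g⁻¹
    rw [mul_inv_cancel, hψ1] at h
    exact eq_neg_of_add_eq_zero_right h.symm
  have hconj : ∀ τ ∈ r.ker, ∀ g, ψ (g * τ * g⁻¹) = act (r g) (ψ τ) := by
    intro τ hτ g
    rw [hcoc (g * τ) g⁻¹, hcoc g τ, map_mul, MonoidHom.mem_ker.mp hτ, mul_one, hinv]
    abel
  have hnr : ∀ τ ∈ r.ker, ∀ g, g * τ * g⁻¹ ∈ r.ker := fun τ hτ g => r.normal_ker.conj_mem τ hτ g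
  have hnχ : ∀ τ ∈ χ.ker, ∀ g, g * τ * g⁻¹ ∈ χ.ker := fun τ hτ g => χ.normal_ker.conj_mem τ hτ g
  -- step (2)
  have hE : ∃ τ, τ ∈ r.ker ∧ τ ∈ χ.ker ∧ ψ τ ≠ 0 := by
    by_contra hcon
    push Not at hcon
    have hker0 : ∀ τ ∈ r.ker, ψ τ = 0 := by
      intro τ hτ
      apply eq_zero_of_invariant h2 r hsplit hirr (htr τ)
      intro g
      rw [← hconj τ hτ g]
      have hmem1 : g * τ * g⁻¹ * τ⁻¹ ∈ r.ker := mul_mem (hnr τ hτ g) (inv_mem hτ)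
      have hmem2 : g * τ * g⁻¹ * τ⁻¹ ∈ χ.ker := by
        rw [MonoidHom.mem_ker, map_mul, map_mul, map_mul, map_inv, map_inv, mul_comm (χ g),
          mul_inv_cancel_right, mul_inv_cancel]
      have h0 := hcon _ hmem1 hmem2
      have h3 : g * τ * g⁻¹ = (g * τ * g⁻¹ * τ⁻¹) * τ := by group
      rw [h3, hadd _ hmem1, h0, zero_add]
    have hdep : ∀ g g', r g = r g' → ψ g = ψ g' := by
      intro g g' h
      have hmem : g⁻¹ * g' ∈ r.ker := by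
        rw [MonoidHom.mem_ker, map_mul, map_inv, h, inv_mul_cancel]
      have h3 : g' = g * (g⁻¹ * g') := by group
      rw [h3, hcoc, hker0 _ hmem, act_zero, add_zero]
    let c : GL (Fin 2) k → M2 k := fun γ => if h : ∃ g, r g = γ then ψ h.choose else 0
    have hc : ∀ g, c (r g) = ψ g := by
      intro g
      have h : ∃ g', r g' = r g := ⟨g, rfl⟩
      simp only [c, dif_pos h]
      exact hdep _ _ h.choose_spec
    have hcoc' : IsCoc r.range c := by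
      refine ⟨?_, ?_⟩
      · rintro _ ⟨g, rfl⟩
        rw [hc]
        exact htr g
      · rintro _ ⟨g, rfl⟩ _ ⟨h, rfl⟩
        rw [← map_mul, hc, hc, hc]
        exact hcoc g h
    obtain ⟨X, hX, hXc⟩ := H1_vanish hp2 r.range
      (fun v hv => by
        obtain ⟨g, _, hg⟩ := hirr ⊤ (Or.inl rfl) v hv
        exact ⟨r g, ⟨g, rfl⟩, hg⟩)
      (fun j hj => by
        obtain ⟨g, hg⟩ := hdet j hj
        exact ⟨r g, ⟨g, rfl⟩, hg⟩) c hcoc'
    exact hnc ⟨X, hX, fun g => by rw [← hc]; exact hXc _ ⟨g, rfl⟩⟩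
  -- step (3)
  obtain ⟨τ₀, hτ₀r, hτ₀χ, hτ₀⟩ := hE
  let W : Submodule k (M2 k) := Submodule.span k (ψ '' {τ | τ ∈ r.ker ∧ τ ∈ χ.ker})
  have hW0 : W ≠ ⊥ := by
    intro h
    have h3 : ψ τ₀ ∈ W := Submodule.subset_span ⟨τ₀, ⟨hτ₀r, hτ₀χ⟩, rfl⟩
    rw [h, Submodule.mem_bot] at h3
    exact hτ₀ h3
  have hWtr : ∀ X ∈ W, X.trace = 0 := by
    intro X hX
    have h3 : W ≤ LinearMap.ker (Matrix.traceLinearMap (Fin 2) k k) := by
      refine Submodule.span_le.mpr ?_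
      rintro _ ⟨τ, _, rfl⟩
      exact htr τ
    exact h3 hX
  have hWst : ∀ g, ∀ X ∈ W, act (r g) X ∈ W := by
    intro g X hX
    have h3 : W ≤ Submodule.comap (actL (r g)) W := by
      refine Submodule.span_le.mpr ?_
      rintro _ ⟨τ, ⟨h4, h5⟩, rfl⟩
      change act (r g) (ψ τ) ∈ W
      rw [← hconj τ h4 g]
      exact Submodule.subset_span ⟨g * τ * g⁻¹, ⟨hnr τ h4 g, hnχ τ h5 g⟩, rfl⟩
    exact h3 hX
  have htop := eq_top_of_stable h2 r hsplit hirr W hW0 hWtr hWst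
  -- step (4)
  obtain ⟨σ₀, hσ₀, hreg⟩ := exists_reg h2 χ r hsplit hirr hdetker
  obtain ⟨Y, hY, hYne⟩ := hreg.exists_trace_mul_ne_zero h2
  let lam : M2 k →ₗ[k] k :=
    (Matrix.traceLinearMap (Fin 2) k k).comp (LinearMap.mulRight k ((r σ₀ : GL (Fin 2) k) : M2 k))
  have hex : ∃ τ, τ ∈ r.ker ∧ τ ∈ χ.ker ∧ (ψ τ * ((r σ₀ : GL (Fin 2) k) : M2 k)).trace ≠ 0 := by
    by_contra hcon
    push Not at hcon
    have h3 : W ≤ LinearMap.ker lam := by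
      refine Submodule.span_le.mpr ?_
      rintro _ ⟨τ, ⟨h4, h5⟩, rfl⟩
      exact hcon τ h4 h5
    exact hYne (h3 (htop Y hY))
  obtain ⟨τ, hτr, hτχ, hτne⟩ := hex
  -- step (5)
  by_cases h0 : (ψ σ₀ * ((r σ₀ : GL (Fin 2) k) : M2 k)).trace = 0
  · refine ⟨τ * σ₀, mul_mem hτχ hσ₀, ?_, ?_⟩
    · rw [map_mul, MonoidHom.mem_ker.mp hτr, one_mul]
      exact hreg
    · rw [hadd τ hτr, map_mul, MonoidHom.mem_ker.mp hτr, one_mul, Matrix.add_mul, Matrix.trace_add,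
        h0, add_zero]
      exact hτne
  · exact ⟨σ₀, hσ₀, hreg, h0⟩

end Fermat.Agent.S56.T

end
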