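/-
S56 block (T), leaf `SigmaPow`: the detection `tr (ψ σ * r σ) ≠ 0` only depends on the cyclic group generated by `σ`.
-/
import Fermat.Agent.S56.T.RegBasic

set_option autoImplicit false

open Matrix Polynomial

noncomputable section

namespace Fermat.Agent.S56.T

variable {k : Type*} [Field k] {G : Type*} [Group G]

theorem SigmaPow_trace_act_mul (g : GL (Fin 2) k) (hg : Matrix.GeneralLinearGroup.det g = 1)
    (Y Z : M2 k) (hZ : Z * (g : M2 k) = (g : M2 k) * Z) :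
    (act g Y * Z).trace = (Y * Z).trace := by
  have h : ((g⁻¹ : GL (Fin 2) k) : M2 k) * (g : M2 k) = 1 := by
    rw [← Units.val_mul, inv_mul_cancel, Units.val_one]
  rw [act, hg, Units.val_one, one_smul, Matrix.mul_assoc, Matrix.mul_assoc, Matrix.trace_mul_comm,
    Matrix.mul_assoc, Matrix.mul_assoc, hZ, ← Matrix.mul_assoc _ (g : M2 k) Z, h, Matrix.one_mul]

theorem SigmaPow_one (r : G →* GL (Fin 2) k) (ψ : G → M2 k) (hψ : IsCocG r ψ) : ψ 1 = 0 := by
  have h := hψ.2 1 1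
  rw [mul_one, map_one, act_one] at h
  exact left_eq_add.mp h

theorem SigmaPow_trace_pow (r : G →* GL (Fin 2) k) (ψ : G → M2 k) (hψ : IsCocG r ψ) {φ : G}
    (hdet : Matrix.GeneralLinearGroup.det (r φ) = 1) (Z : M2 k)
    (hZ : Z * ((r φ : GL (Fin 2) k) : M2 k) = ((r φ : GL (Fin 2) k) : M2 k) * Z) (b : ℕ) :
    (ψ (φ ^ b) * Z).trace = (b : k) * (ψ φ * Z).trace := by
  induction b with
  | zero => rw [pow_zero, SigmaPow_one r ψ hψ, Matrix.zero_mul, Matrix.trace_zero, Nat.cast_zero,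
      zero_mul]
  | succ b ih =>
    rw [pow_succ', hψ.2, Matrix.add_mul, Matrix.trace_add, SigmaPow_trace_act_mul _ hdet _ _ hZ, ih]
    push_cast
    ring

/-- The detection is insensitive to replacing `σ` by a generator `φ` of the same cyclic group:
if `r (φ ^ b) = r σ`, `ψ (φ ^ b) = ψ σ` and `det (r φ) = 1` then `tr (ψ σ * r σ) = b * t * tr (ψ φ * r φ)` where
`(r φ) ^ b = s + t r φ`.
PROOF.  `ψ (φ ^ b) = ∑ i < b, act (r φ ^ i) (ψ φ)` (induction), `act = ` conjugation (`det = 1`),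
`tr (g ^ i X g ^ (-i) g ^ b) = tr (X g ^ b)`, `g ^ b = s + t g` (`exists_pow_eq`), `tr X = 0`. -/
theorem trace_ne_zero_of_pow (r : G →* GL (Fin 2) k) (ψ : G → M2 k) (hψ : IsCocG r ψ) {φ : G}
    (hdet : Matrix.GeneralLinearGroup.det (r φ) = 1) {b : ℕ}
    (h : (ψ (φ ^ b) * ((r (φ ^ b) : GL (Fin 2) k) : M2 k)).trace ≠ 0) :
    (ψ φ * ((r φ : GL (Fin 2) k) : M2 k)).trace ≠ 0 := by
  intro h0
  apply h
  obtain ⟨s, t, hst⟩ := exists_pow_eq ((r φ : GL (Fin 2) k) : M2 k) b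
  have e : ((r (φ ^ b) : GL (Fin 2) k) : M2 k) = ((r φ : GL (Fin 2) k) : M2 k) ^ b := by
    rw [map_pow, Units.val_pow_eq_pow_val]
  have hZ : ((r φ : GL (Fin 2) k) : M2 k) ^ b * ((r φ : GL (Fin 2) k) : M2 k) =
      ((r φ : GL (Fin 2) k) : M2 k) * ((r φ : GL (Fin 2) k) : M2 k) ^ b := by
    rw [← pow_succ, ← pow_succ']
  rw [e, SigmaPow_trace_pow r ψ hψ hdet _ hZ b, hst, Matrix.mul_add, Matrix.trace_add,
    Matrix.mul_smul, Matrix.mul_smul, Matrix.trace_smul, Matrix.trace_smul, Matrix.mul_one,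
    hψ.1 φ, h0, smul_zero, smul_zero, add_zero, mul_zero]

end Fermat.Agent.S56.T

end
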