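/-
S56 block (T): MAIN THEOREM = existence of Taylor-Wiles primes detecting a given class of `H¹(G_ℚ, ad⁰ ρbar (1))`.

CONTRACT for the other blocks of S56:
* `N = ad⁰ ρbar ⊗ det ρbar` is realised inside `Module.End k ρ.V` (trace zero endomorphisms) with the action `actE ρ`;
* `IsCocE ρ ψ` : `ψ : GQ → End_k(V)` is a continuous 1-cocycle with values in `N`;  `IsCobE ρ ψ` : coboundary;
* `exists_TW_prime` : a cocycle which is not a coboundary is detected at a prime `q ∉ T`, `q ≡ 1 mod p ^ (n+1)`, with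
  `ρbar(Frob_q)` regular:  `tr (ψ φ * ρ φ) ≠ 0`;
* `trace_eq_zero_of_cob` : `ψ ↦ tr (ψ φ * ρ φ)` (additive, `k`-linear in `ψ`) kills the cocycles with `ψ φ ∈ (φ - 1) N` when `det ρ φ = 1`;
* `AllFrob.lean : charpoly_frobenius_eq` : the regularity holds for all Frobenius elements over `q`.
-/
import Fermat.Agent.S56.T.Sigma
import Fermat.Agent.S56.T.SigmaPow
import Fermat.Agent.S56.T.MatIrr
import Fermat.Agent.S56.T.CycDet
import Fermat.Agent.S56.T.AllFrob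
import Fermat.Agent.Lib.FrobDensity.Main

set_option autoImplicit false

open Matrix Polynomial

noncomputable section

namespace Fermat.Agent.S56.T

variable {k : Type} [Field k]

/-- the linear form `X ↦ tr (X ρ(φ))` kills `(φ - 1) N` when `det ρ(φ) = 1`. -/
theorem trace_eq_zero_of_cob (ρ : ResidualGaloisRep k) {φ : GQ} (hdet : LinearMap.det (ρ.ρ φ) = 1)
    (X : Module.End k ρ.V) : LinearMap.trace k ρ.V ((actE ρ φ X - X) * ρ.ρ φ) = 0 := by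
  have h1 : ρ.ρ φ⁻¹ * ρ.ρ φ = 1 := by rw [← map_mul, inv_mul_cancel, map_one]
  rw [actE, hdet, one_smul, sub_mul, map_sub, mul_assoc, h1, mul_one, LinearMap.trace_mul_comm,
    sub_self]

/-- **Existence of Taylor-Wiles primes.** -/
theorem exists_TW_prime [Finite k] (p : ℕ) [Fact p.Prime] (hp2 : p ≠ 2)
    (ρ : ResidualGaloisRep k) (habs : ρ.IsAbsolutelyIrreducible)
    (hdet : (GaloisRepAdic.ofResidualGaloisRep ρ).DetIsCyclotomic p)
    (hsplit : ∀ σ : GQ, ∃ α β : k, LinearMap.charpoly (ρ.ρ σ) = (X - C α) * (X - C β))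
    (hTW : ∀ (K : Type) [Field K] [Algebra k K] (G : Subgroup GQ), G.index = 2 →
      ∀ V : Submodule K (ρ.baseChange K).V,
        (∀ σ ∈ G, ∀ x ∈ V, (ρ.baseChange K).ρ σ x ∈ V) → V = ⊥ ∨ V = ⊤)
    (n : ℕ) (T : Finset ℕ) (ψ : GQ → Module.End k ρ.V) (hψ : IsCocE ρ ψ) (hnc : ¬ IsCobE ρ ψ) :
    ∃ (q : ℕ) (P : ValuationSubring Qb) (φ : GQ), q.Prime ∧ q ∉ T ∧ p ^ (n + 1) ∣ q - 1 ∧
      P.LiesOverPrime q ∧ P.IsFrobeniusAt φ q ∧ LinearMap.det (ρ.ρ φ) = 1 ∧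
      (∃ α β : k, α ≠ β ∧ LinearMap.charpoly (ρ.ρ φ) = (X - C α) * (X - C β)) ∧
      LinearMap.trace k ρ.V (ψ φ * ρ.ρ φ) ≠ 0 := by
  classical
  have hchar : CharP k p := charP_of_det hdet
  have hcyc : IsCyclic (ZMod (p ^ (n + 1)))ˣ := isCyclic_units_zmod_pow p hp2 n
  have hdet1 : ∀ g ∈ (chiN p n).ker, Matrix.GeneralLinearGroup.det (matRep ρ g) = 1 := by
    intro g hg
    apply Units.ext
    rw [det_matRep, det_eq_one_of_mem_ker hdet hg, Units.val_one]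
  obtain ⟨σ, hσker, hσreg, hσtr⟩ := exists_sigma hp2 (chiN p n) (matRep ρ) (split_matRep ρ hsplit)
    (irr2_matRep ρ habs hTW) hdet1
    (fun j hj => by
      obtain ⟨g, hg⟩ := exists_det_eq hdet j hj
      exact ⟨g, by rw [det_matRep, hg]⟩)
    (matCoc ρ ψ) (isCocG_matCoc ρ hψ) (fun h => hnc (isCobE_of_isCobG ρ h))
  obtain ⟨L1, hL1, h1⟩ := ρ.factorsThroughFiniteLevel
  obtain ⟨L2, hL2, h2⟩ := hψ.smooth
  obtain ⟨L3, hL3, h3⟩ := exists_field_chiN p n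
  have hF12 : FiniteDimensional ℚ (L1 ⊔ L2 : IntermediateField ℚ Qb) :=
    IntermediateField.finiteDimensional_sup L1 L2
  have hF : FiniteDimensional ℚ (L1 ⊔ L2 ⊔ L3 : IntermediateField ℚ Qb) :=
    IntermediateField.finiteDimensional_sup (L1 ⊔ L2) L3
  obtain ⟨q, P, φ, a, b, hq, hqT, hP, hφ, hb, ha⟩ :=
    Fermat.Agent.Lib.FrobDensity.exists_frobenius_pow (L1 ⊔ L2 ⊔ L3) σ (insert p T)
  have hle1 : L1 ≤ L1 ⊔ L2 ⊔ L3 := le_sup_left.trans le_sup_left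
  have hle2 : L2 ≤ L1 ⊔ L2 ⊔ L3 := le_sup_right.trans le_sup_left
  have hle3 : L3 ≤ L1 ⊔ L2 ⊔ L3 := le_sup_right
  have hqp : q ≠ p := fun h => hqT (h ▸ Finset.mem_insert_self p T)
  have hqT' : q ∉ T := fun h => hqT (Finset.mem_insert_of_mem h)
  -- `τ := σ⁻¹ φ ^ b` and `τ' := (σ ^ a)⁻¹ φ` fix `F`
  have hτ : ∀ x ∈ (L1 ⊔ L2 ⊔ L3 : IntermediateField ℚ Qb), (σ⁻¹ * φ ^ b) x = x := by
    intro x hx
    rw [AlgEquiv.mul_apply, hb x hx, ← AlgEquiv.mul_apply, inv_mul_cancel, AlgEquiv.one_apply]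
  have hτ' : ∀ x ∈ (L1 ⊔ L2 ⊔ L3 : IntermediateField ℚ Qb), ((σ ^ a)⁻¹ * φ) x = x := by
    intro x hx
    rw [AlgEquiv.mul_apply, ← ha x hx, ← AlgEquiv.mul_apply, inv_mul_cancel, AlgEquiv.one_apply]
  have hφb : φ ^ b = σ * (σ⁻¹ * φ ^ b) := by rw [mul_inv_cancel_left]
  have hφa : φ = σ ^ a * ((σ ^ a)⁻¹ * φ) := by rw [mul_inv_cancel_left]
  have hρb : ρ.ρ (φ ^ b) = ρ.ρ σ := by
    rw [hφb, map_mul, h1 _ fun x hx => hτ x (hle1 hx), mul_one]
  have hrb : matRep ρ (φ ^ b) = matRep ρ σ := by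
    apply Units.ext
    rw [coe_matRep, coe_matRep, hρb]
  have hψb : ψ (φ ^ b) = ψ σ := by
    rw [hφb]
    exact h2 _ (fun x hx => hτ x (hle2 hx)) σ
  have hφker : φ ∈ (chiN p n).ker := by
    rw [hφa]
    exact mul_mem (pow_mem hσker a) (h3 _ fun x hx => hτ' x (hle3 hx))
  have hreg : Reg ((matRep ρ φ : GL (Fin 2) k) : M2 k) := by
    apply Reg.of_pow (split_matRep ρ hsplit φ) (b := b)
    rw [← Units.val_pow_eq_pow_val, ← map_pow, hrb]
    exact hσreg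
  have htr : (matCoc ρ ψ φ * ((matRep ρ φ : GL (Fin 2) k) : M2 k)).trace ≠ 0 := by
    apply trace_ne_zero_of_pow (matRep ρ) (matCoc ρ ψ) (isCocG_matCoc ρ hψ) (hdet1 φ hφker) (b := b)
    rw [hrb]
    have : matCoc ρ ψ (φ ^ b) = matCoc ρ ψ σ := by
      unfold matCoc
      rw [hψb]
    rw [this]
    exact hσtr
  refine ⟨q, P, φ, hq, hqT', dvd_sub_one_of_frobenius hq hqp hP hφ hφker, hP, hφ,
    det_eq_one_of_mem_ker hdet hφker, ?_, ?_⟩
  · obtain ⟨α, β, hαβ, h⟩ := hreg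
    exact ⟨α, β, hαβ, by rw [← charpoly_matRep, h]⟩
  · rw [← trace_matCoc_mul]
    exact htr

end Fermat.Agent.S56.T

end
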