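/-
S56 block (T), leaf `AllFrob`: at an unramified prime the characteristic polynomial of Frobenius does not depend on the choice of
the place and of the Frobenius element.
-/
import Fermat.Agent.S56.T.Gal
import Fermat.Agent.PT.Global.PlaceSystem
import Fermat.Agent.PT.Bridge.Levels

set_option autoImplicit false

open Matrix Polynomial
open scoped Pointwise

noncomputable section

namespace Fermat.Agent.S56.T

variable {k : Type} [Field k]

/-- two Frobenius elements at the same place differ by an element of the inertia group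
(both lie in the decomposition group and act on the residue field by `x ↦ x ^ q`; unfold
`ValuationSubring.inertiaSubgroupIn`, see `Fermat/Prelude/Def_EllipticCurve_FrobeniusTrace.lean`). -/
theorem inv_mul_mem_inertia {q : ℕ} {P : ValuationSubring Qb} {φ φ' : GQ}
    (hφ : P.IsFrobeniusAt φ q) (hφ' : P.IsFrobeniusAt φ' q) : φ⁻¹ * φ' ∈ P.inertiaSubgroupIn ℚ := by
  set d : P.decompositionSubgroup ℚ := ⟨φ, hφ.mem_decompositionSubgroup⟩ with hd
  set d' : P.decompositionSubgroup ℚ := ⟨φ', hφ'.mem_decompositionSubgroup⟩ with hd'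
  refine ⟨d⁻¹ * d', ?_, rfl⟩
  change _ ∈ MonoidHom.ker _
  rw [MonoidHom.mem_ker]
  apply RingEquiv.ext
  intro x
  change (d⁻¹ * d') • x = x
  rw [mul_smul, hφ'.smul_residue_eq, ← hφ.smul_residue_eq, inv_smul_smul]

theorem AllFrob_isFrobeniusAt_iff (A : ValuationSubring Qb) (σ : GQ) (q : ℕ) :
    A.IsFrobeniusAt σ q ↔ σ • A = A ∧ ∀ x ∈ A, σ x - x ^ q ∈ A.nonunits := by
  constructor
  · intro h
    refine ⟨h.mem_decompositionSubgroup, fun x hx => ?_⟩
    have h2 := h.smul_residue_eq (IsLocalRing.residue A ⟨x, hx⟩)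
    rw [← IsLocalRing.ResidueField.residue_smul, ← map_pow] at h2
    have h3 : ((⟨σ, h.mem_decompositionSubgroup⟩ : A.decompositionSubgroup ℚ) • (⟨x, hx⟩ : A)) -
        (⟨x, hx⟩ : A) ^ q ∈ IsLocalRing.maximalIdeal A := by
      rw [← IsLocalRing.residue_eq_zero_iff, map_sub, h2, sub_self]
    rw [← ValuationSubring.coe_mem_nonunits_iff] at h3
    exact h3
  · rintro ⟨hdec, h⟩
    have hdec' : σ ∈ A.decompositionSubgroup ℚ := hdec
    refine ⟨hdec', ?_⟩
    intro xbar
    obtain ⟨x, rfl⟩ := IsLocalRing.residue_surjective xbar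
    rw [← IsLocalRing.ResidueField.residue_smul, ← map_pow, ← sub_eq_zero, ← map_sub,
      IsLocalRing.residue_eq_zero_iff, ← ValuationSubring.coe_mem_nonunits_iff]
    exact h x x.2

/-- conjugation of Frobenius elements: `g φ g⁻¹` is a Frobenius element at `g • P`. -/
theorem isFrobeniusAt_conj {q : ℕ} {P : ValuationSubring Qb} {φ : GQ} (hφ : P.IsFrobeniusAt φ q)
    (g : GQ) : (g • P).IsFrobeniusAt (g * φ * g⁻¹) q := by
  rw [AllFrob_isFrobeniusAt_iff] at hφ ⊢
  obtain ⟨h1, h2⟩ := hφ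
  refine ⟨?_, fun x hx => ?_⟩
  · rw [← mul_smul, inv_mul_cancel_right, mul_smul, h1]
  · rw [ValuationSubring.mem_pointwise_smul_iff_inv_smul_mem] at hx
    have := PT.Levels_smul_mem_nonunits P g (h2 _ hx)
    have e : g (φ (g⁻¹ • x) - (g⁻¹ • x) ^ q) = (g * φ * g⁻¹) x - x ^ q := by
      rw [map_sub, map_pow]
      congr 2
      change (g * g⁻¹) x = x
      simp
    rwa [e] at this

/-- **Independence of the Frobenius element.**  `P' = g • P`
(`Fermat.Agent.PT.exists_smul_eq_of_liesOverPrime`), `φ' ∈ g φ g⁻¹ I_{P'}`, `ρ` trivial on `I_{P'}`, and the characteristic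
polynomial is invariant by conjugation (`LinearMap.charpoly` of `ρ g * ρ φ * ρ g⁻¹`: use `LinearEquiv.charpoly_conj` with
the linear equivalence defined by `ρ g`, or matrices). -/
theorem charpoly_frobenius_eq (ρ : ResidualGaloisRep k) {q : ℕ} (hq : q.Prime)
    (hur : ρ.IsUnramifiedAt q) {P P' : ValuationSubring Qb} {φ φ' : GQ}
    (hP : P.LiesOverPrime q) (hφ : P.IsFrobeniusAt φ q)
    (hP' : P'.LiesOverPrime q) (hφ' : P'.IsFrobeniusAt φ' q) :
    LinearMap.charpoly (ρ.ρ φ') = LinearMap.charpoly (ρ.ρ φ) := by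
  obtain ⟨g, rfl⟩ := PT.exists_smul_eq_of_liesOverPrime hq P P' hP hP'
  have h1 := inv_mul_mem_inertia (isFrobeniusAt_conj hφ g) hφ'
  have h2 := hur _ hP' _ h1
  have h3 : ρ.ρ φ' = ρ.ρ (g * φ * g⁻¹) := by
    have : ρ.ρ (g * φ * g⁻¹) * ρ.ρ ((g * φ * g⁻¹)⁻¹ * φ') = ρ.ρ φ' := by
      rw [← map_mul, mul_inv_cancel_left]
    rw [← this, h2, mul_one]
  let e : ρ.V ≃ₗ[k] ρ.V := LinearEquiv.ofLinearMap (ρ.ρ g) (ρ.ρ g⁻¹)
    (by
      show ρ.ρ g * ρ.ρ g⁻¹ = 1
      rw [← map_mul, mul_inv_cancel, map_one])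
    (by
      show ρ.ρ g⁻¹ * ρ.ρ g = 1
      rw [← map_mul, inv_mul_cancel, map_one])
  have h4 : ρ.ρ (g * φ * g⁻¹) = e.conj (ρ.ρ φ) := by
    rw [map_mul, map_mul]
    rfl
  rw [h3, h4, LinearEquiv.charpoly_conj]

end Fermat.Agent.S56.T

end
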